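import Mathlib

set_option autoImplicit false

namespace Fermat.Agent.S51.H83

/-- A nonzero natural number all of whose `p`-adic valuations are even is a square. -/
lemma nat_isSquare_of_even_padicValNat {N : ℕ} (hN : N ≠ 0)
    (h : ∀ p : ℕ, p.Prime → Even (padicValNat p N)) : IsSquare N := by
  obtain ⟨a, b, hab, ha⟩ := Nat.sq_mul_squarefree N
  have ha0 : a ≠ 0 := by
    rintro rfl
    exact hN (by rw [← hab]; ring)
  have hb0 : b ≠ 0 := by
    rintro rfl
    exact hN (by rw [← hab]; ring)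
  have ha1 : a = 1 := by
    by_contra hne
    obtain ⟨p, hp, hpa⟩ := Nat.exists_prime_and_dvd hne
    have : Fact p.Prime := ⟨hp⟩
    have h1 : padicValNat p N = 2 * padicValNat p b + padicValNat p a := by
      rw [← hab, padicValNat.mul (pow_ne_zero 2 hb0) ha0, padicValNat.pow]
    have hle : padicValNat p a ≤ 1 := by
      by_contra hgt
      have h2 : p ^ 2 ∣ a := (padicValNat_dvd_iff_le ha0).mpr (by omega)
      have h3 := ha p (by rw [← sq]; exact h2)
      exact hp.one_lt.ne' (Nat.isUnit_iff.mp h3)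
    have hge : 1 ≤ padicValNat p a := one_le_padicValNat_of_dvd ha0 hpa
    have h4 := h p hp
    rw [h1] at h4
    rw [Nat.even_iff] at h4
    omega
  subst ha1
  exact ⟨b, by rw [← hab]; ring⟩

/-- A nonzero integer all of whose `p`-adic valuations are even is plus or minus a square. -/
lemma int_isSquare_natAbs_of_even_padicValInt {z : ℤ} (hz : z ≠ 0)
    (h : ∀ p : ℕ, p.Prime → Even (padicValInt p z)) : ∃ u : ℤ, z = u ^ 2 ∨ z = -u ^ 2 := by
  have hN : z.natAbs ≠ 0 := Int.natAbs_ne_zero.mpr hz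
  obtain ⟨u, hu⟩ := nat_isSquare_of_even_padicValNat hN h
  refine ⟨(u : ℤ), ?_⟩
  rcases Int.natAbs_eq z with h1 | h1
  · left; rw [h1, hu]; push_cast; ring
  · right; rw [h1, hu]; push_cast; ring

lemma not_dvd_of_isCoprime {m e : ℤ} (hme : IsCoprime m e) {p : ℕ} (hp : p.Prime)
    (hm : (p : ℤ) ∣ m) : ¬ (p : ℤ) ∣ e := by
  intro he
  obtain ⟨a, b, hab⟩ := hme
  have h1 : (p : ℤ) ∣ 1 := by
    rw [← hab]
    exact dvd_add (Dvd.dvd.mul_left hm a) (Dvd.dvd.mul_left he b)
  have h2 : p ∣ 1 := by exact_mod_cast h1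
  exact hp.one_lt.ne' (Nat.dvd_one.mp h2)

lemma int_prime_dvd_of_dvd_mul_sq {p : ℕ} (hp : p.Prime) {c e : ℤ}
    (h : (p : ℤ) ∣ c * e ^ 2) : (p : ℤ) ∣ c ∨ (p : ℤ) ∣ e := by
  have hp' : Prime (p : ℤ) := Nat.prime_iff_prime_int.mp hp
  rcases hp'.dvd_or_dvd h with h1 | h1
  · left; exact h1
  · right; exact hp'.dvd_of_dvd_pow h1

/-- mod 3 obstruction -/
lemma zmod3_obstruction : ∀ a b c : ZMod 3, b ≠ 0 → c ≠ 0 →
    a ^ 2 = b * (b + 3 * c ^ 2) * (3 * b - 16 * c ^ 2) → False := by decide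

/-- mod 8 obstruction, `v₂(m) = 1` -/
lemma zmod8_obstruction1 : ∀ a k l : ZMod 8,
    a ^ 2 = (2 * k + 1) * (2 * (2 * k + 1) + 9 * (2 * l + 1) ^ 2) *
      ((2 * k + 1) - 8 * (2 * l + 1) ^ 2) → False := by decide

/-- mod 8 obstruction, `v₂(m) = 3` -/
lemma zmod8_obstruction3 : ∀ a k l : ZMod 8,
    a ^ 2 = (2 * k + 1) * (8 * (2 * k + 1) + 9 * (2 * l + 1) ^ 2) *
      ((2 * k + 1) - 2 * (2 * l + 1) ^ 2) → False := by decide

lemma even_padicValInt_of_sq_dvd_not_cube_dvd {p : ℕ} [hp : Fact p.Prime] {z : ℤ} (hz : z ≠ 0)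
    {k : ℕ} (h1 : (p : ℤ) ^ (2 * k) ∣ z) (h2 : ¬ (p : ℤ) ^ (2 * k + 1) ∣ z) :
    Even (padicValInt p z) := by
  rw [padicValInt_dvd_iff] at h1 h2
  have h3 : 2 * k ≤ padicValInt p z := h1.resolve_left hz
  have h4 : ¬ 2 * k + 1 ≤ padicValInt p z := fun h => h2 (Or.inr h)
  rw [Nat.even_iff]
  omega

lemma padicValInt_eq_of_dvd_not_dvd {p : ℕ} [hp : Fact p.Prime] {z : ℤ} (hz : z ≠ 0)
    {k : ℕ} (h1 : (p : ℤ) ^ k ∣ z) (h2 : ¬ (p : ℤ) ^ (k + 1) ∣ z) :
    padicValInt p z = k := by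
  rw [padicValInt_dvd_iff] at h1 h2
  have h3 : k ≤ padicValInt p z := h1.resolve_left hz
  have h4 : ¬ k + 1 ≤ padicValInt p z := fun h => h2 (Or.inr h)
  omega

/-- The 2-descent classes on `n^2 = m (m + 9 e^2) (m - 16 e^2)`. -/
theorem descent_classes_int {m e n : ℤ} (hme : IsCoprime m e) (he : e ≠ 0) (hn : n ≠ 0)
    (h : n ^ 2 = m * (m + 9 * e ^ 2) * (m - 16 * e ^ 2)) :
    (∃ u : ℤ, m = u ^ 2 ∨ m = -u ^ 2) ∧
      (∃ v : ℤ, m + 9 * e ^ 2 = v ^ 2 ∨ m + 9 * e ^ 2 = 5 * v ^ 2) := by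
  have hprod : m * (m + 9 * e ^ 2) * (m - 16 * e ^ 2) ≠ 0 := by
    rw [← h]; exact pow_ne_zero 2 hn
  have hm : m ≠ 0 := fun h0 => hprod (by rw [h0]; ring)
  have hA : m + 9 * e ^ 2 ≠ 0 := fun h0 => hprod (by rw [h0]; ring)
  have hB : m - 16 * e ^ 2 ≠ 0 := fun h0 => hprod (by rw [h0]; ring)
  -- the valuation identity
  have hval : ∀ p : ℕ, p.Prime → padicValInt p m + padicValInt p (m + 9 * e ^ 2) +
      padicValInt p (m - 16 * e ^ 2) = 2 * padicValInt p n := by
    intro p hp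
    have : Fact p.Prime := ⟨hp⟩
    rw [← padicValInt.mul hm hA, ← padicValInt.mul (mul_ne_zero hm hA) hB, ← h, sq,
      padicValInt.mul hn hn]
    ring
  -- no prime divides both A and B unless it is 5
  have hAB : ∀ p : ℕ, p.Prime → p ≠ 5 → (p : ℤ) ∣ m + 9 * e ^ 2 → ¬ (p : ℤ) ∣ m - 16 * e ^ 2 := by
    intro p hp hp5 h1 h2
    have h3 : (p : ℤ) ∣ 25 * e ^ 2 := by
      have := dvd_sub h1 h2
      have h4 : m + 9 * e ^ 2 - (m - 16 * e ^ 2) = 25 * e ^ 2 := by ring
      rwa [h4] at this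
    rcases int_prime_dvd_of_dvd_mul_sq hp h3 with h4 | h4
    · have h5 : p ∣ 25 := by exact_mod_cast h4
      have h6 : p ∣ 5 := hp.dvd_of_dvd_pow (show p ∣ 5 ^ 2 by norm_num; exact h5)
      exact hp5 ((Nat.prime_dvd_prime_iff_eq hp (by norm_num)).mp h6)
    · have h5 : (p : ℤ) ∣ m := by
        have := dvd_sub h1 (Dvd.dvd.mul_left (Dvd.dvd.pow h4 two_ne_zero) 9)
        have h6 : m + 9 * e ^ 2 - 9 * e ^ 2 = m := by ring
        rwa [h6] at this
      exact not_dvd_of_isCoprime hme hp h5 h4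
  -- Claim 1: all valuations of m are even
  have claim1 : ∀ p : ℕ, p.Prime → Even (padicValInt p m) := by
    intro p hp
    have : Fact p.Prime := ⟨hp⟩
    by_cases hpm : (p : ℤ) ∣ m
    swap
    · rw [padicValInt.eq_zero_of_not_dvd hpm]; exact Even.zero
    have hpe : ¬ (p : ℤ) ∣ e := not_dvd_of_isCoprime hme hp hpm
    by_cases hp2 : p = 2
    · subst hp2
      -- A is odd
      have hA2 : ¬ ((2 : ℕ) : ℤ) ∣ m + 9 * e ^ 2 := by
        intro h1
        have h2 : ((2 : ℕ) : ℤ) ∣ 9 * e ^ 2 := by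
          have := dvd_sub h1 hpm
          have h6 : m + 9 * e ^ 2 - m = 9 * e ^ 2 := by ring
          rwa [h6] at this
        rcases int_prime_dvd_of_dvd_mul_sq hp h2 with h4 | h4
        · norm_num at h4
        · exact hpe h4
      have hvA : padicValInt 2 (m + 9 * e ^ 2) = 0 := padicValInt.eq_zero_of_not_dvd hA2
      have hv := hval 2 hp
      rw [hvA] at hv
      have he2 : ∃ l : ℤ, e = 2 * l + 1 := by
        have : ¬ (2 : ℤ) ∣ e := by simpa using hpe
        exact Int.not_even_iff_odd.mp (fun h => this (even_iff_two_dvd.mp h))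
      obtain ⟨l, hl⟩ := he2
      by_cases h4 : (2 : ℤ) ^ 2 ∣ m
      swap
      · -- v₂(m) = 1 : contradiction
        exfalso
        obtain ⟨m', hm'⟩ : (2 : ℤ) ∣ m := by simpa using hpm
        have hm'odd : ∃ k : ℤ, m' = 2 * k + 1 := by
          have : ¬ (2 : ℤ) ∣ m' := by
            rintro ⟨c, hc⟩
            exact h4 ⟨c, by rw [hm', hc]; ring⟩
          exact Int.not_even_iff_odd.mp (fun h => this (even_iff_two_dvd.mp h))
        obtain ⟨k, hk⟩ := hm'odd
        have hn2 : (2 : ℤ) ∣ n := by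
          have h5 : (2 : ℤ) ∣ n ^ 2 := by
            rw [h, hm']
            exact ⟨m' * (2 * m' + 9 * e ^ 2) * (2 * m' - 16 * e ^ 2), by ring⟩
          exact Int.prime_two.dvd_of_dvd_pow h5
        obtain ⟨n', hn'⟩ := hn2
        have h6 : n' ^ 2 = m' * (2 * m' + 9 * e ^ 2) * (m' - 8 * e ^ 2) := by
          have h7 : 4 * n' ^ 2 = 4 * (m' * (2 * m' + 9 * e ^ 2) * (m' - 8 * e ^ 2)) := by
            have := h
            rw [hn', hm'] at this
            linear_combination this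
          linarith
        have h8 := congrArg (Int.cast : ℤ → ZMod 8) h6
        rw [hk, hl] at h8
        push_cast at h8
        exact zmod8_obstruction1 _ _ _ h8
      by_cases h8 : (2 : ℤ) ^ 3 ∣ m
      swap
      · exact even_padicValInt_of_sq_dvd_not_cube_dvd (k := 1) hm (by simpa using h4)
          (by simpa using h8)
      by_cases h16 : (2 : ℤ) ^ 4 ∣ m
      swap
      · -- v₂(m) = 3 : contradiction
        exfalso
        obtain ⟨m', hm'⟩ := h8
        have hm'odd : ∃ k : ℤ, m' = 2 * k + 1 := by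
          have : ¬ (2 : ℤ) ∣ m' := by
            rintro ⟨c, hc⟩
            exact h16 ⟨c, by rw [hm', hc]; ring⟩
          exact Int.not_even_iff_odd.mp (fun h => this (even_iff_two_dvd.mp h))
        obtain ⟨k, hk⟩ := hm'odd
        have hn2 : (8 : ℤ) ∣ n := by
          have h5 : (8 : ℤ) ^ 2 ∣ n ^ 2 := by
            rw [h, hm']
            exact ⟨m' * (8 * m' + 9 * e ^ 2) * (m' - 2 * e ^ 2), by ring⟩
          exact (Int.pow_dvd_pow_iff two_ne_zero).mp h5
        obtain ⟨n', hn'⟩ := hn2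
        have h6 : n' ^ 2 = m' * (8 * m' + 9 * e ^ 2) * (m' - 2 * e ^ 2) := by
          have h7 : 64 * n' ^ 2 = 64 * (m' * (8 * m' + 9 * e ^ 2) * (m' - 2 * e ^ 2)) := by
            have := h
            rw [hn', hm'] at this
            linear_combination this
          linarith
        have h9 := congrArg (Int.cast : ℤ → ZMod 8) h6
        rw [hk, hl] at h9
        push_cast at h9
        exact zmod8_obstruction3 _ _ _ h9
      by_cases h32 : (2 : ℤ) ^ 5 ∣ m
      swap
      · exact even_padicValInt_of_sq_dvd_not_cube_dvd (k := 2) hm (by simpa using h16)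
          (by simpa using h32)
      -- 32 ∣ m : v₂(B) = 4
      have hvB : padicValInt 2 (m - 16 * e ^ 2) = 4 := by
        apply padicValInt_eq_of_dvd_not_dvd hB
        · obtain ⟨c, hc⟩ := h16
          exact ⟨c - e ^ 2, by rw [hc]; push_cast; ring⟩
        · intro h1
          obtain ⟨c, hc⟩ := h32
          have h2 : ((2 : ℕ) : ℤ) ^ (4 + 1) ∣ 16 * e ^ 2 := by
            have := dvd_sub (show ((2 : ℕ) : ℤ) ^ (4 + 1) ∣ m from ⟨c, by rw [hc]; push_cast; ring⟩) h1
            have h6 : m - (m - 16 * e ^ 2) = 16 * e ^ 2 := by ring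
            rwa [h6] at this
          obtain ⟨d, hd⟩ := h2
          have h3 : e ^ 2 = 2 * d := by
            push_cast at hd
            linarith
          rw [hl] at h3
          omega
      rw [hvB] at hv
      rw [Nat.even_iff]
      omega
    by_cases hp3 : p = 3
    · subst hp3
      have hB3 : ¬ ((3 : ℕ) : ℤ) ∣ m - 16 * e ^ 2 := by
        intro h1
        have h2 : ((3 : ℕ) : ℤ) ∣ 16 * e ^ 2 := by
          have := dvd_sub hpm h1
          have h6 : m - (m - 16 * e ^ 2) = 16 * e ^ 2 := by ring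
          rwa [h6] at this
        rcases int_prime_dvd_of_dvd_mul_sq hp h2 with h4 | h4
        · norm_num at h4
        · exact hpe h4
      have hvB : padicValInt 3 (m - 16 * e ^ 2) = 0 := padicValInt.eq_zero_of_not_dvd hB3
      have hv := hval 3 hp
      rw [hvB] at hv
      by_cases h9 : (3 : ℤ) ^ 2 ∣ m
      swap
      · -- v₃(m) = 1 : contradiction
        exfalso
        obtain ⟨m', hm'⟩ : (3 : ℤ) ∣ m := by simpa using hpm
        have hm'3 : ¬ (3 : ℤ) ∣ m' := by
          rintro ⟨c, hc⟩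
          exact h9 ⟨c, by rw [hm', hc]; ring⟩
        have hn3 : (3 : ℤ) ∣ n := by
          have h5 : (3 : ℤ) ∣ n ^ 2 := by
            rw [h, hm']
            exact ⟨m' * (3 * m' + 9 * e ^ 2) * (3 * m' - 16 * e ^ 2), by ring⟩
          exact Int.prime_three.dvd_of_dvd_pow h5
        obtain ⟨n', hn'⟩ := hn3
        have h6 : n' ^ 2 = m' * (m' + 3 * e ^ 2) * (3 * m' - 16 * e ^ 2) := by
          have h7 : 9 * n' ^ 2 = 9 * (m' * (m' + 3 * e ^ 2) * (3 * m' - 16 * e ^ 2)) := by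
            have := h
            rw [hn', hm'] at this
            linear_combination this
          linarith
        have h8 := congrArg (Int.cast : ℤ → ZMod 3) h6
        push_cast at h8
        have hm'0 : (m' : ZMod 3) ≠ 0 := by
          rw [Ne, ZMod.intCast_zmod_eq_zero_iff_dvd]
          exact_mod_cast hm'3
        have he0 : (e : ZMod 3) ≠ 0 := by
          rw [Ne, ZMod.intCast_zmod_eq_zero_iff_dvd]
          exact_mod_cast hpe
        exact zmod3_obstruction _ _ _ hm'0 he0 h8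
      by_cases h27 : (3 : ℤ) ^ 3 ∣ m
      swap
      · exact even_padicValInt_of_sq_dvd_not_cube_dvd (k := 1) hm (by simpa using h9)
          (by simpa using h27)
      -- 27 ∣ m : v₃(A) = 2
      have hvA : padicValInt 3 (m + 9 * e ^ 2) = 2 := by
        apply padicValInt_eq_of_dvd_not_dvd hA
        · obtain ⟨c, hc⟩ := h9
          exact ⟨c + e ^ 2, by rw [hc]; push_cast; ring⟩
        · intro h1
          obtain ⟨c, hc⟩ := h27
          have h2 : ((3 : ℕ) : ℤ) ^ (2 + 1) ∣ 9 * e ^ 2 := by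
            have := dvd_sub h1 (show ((3 : ℕ) : ℤ) ^ (2 + 1) ∣ m from ⟨c, by rw [hc]; push_cast; ring⟩)
            have h6 : m + 9 * e ^ 2 - m = 9 * e ^ 2 := by ring
            rwa [h6] at this
          obtain ⟨d, hd⟩ := h2
          have h3 : ((3 : ℕ) : ℤ) ∣ 1 * e ^ 2 := ⟨d, by push_cast at hd ⊢; linarith⟩
          rcases int_prime_dvd_of_dvd_mul_sq hp h3 with h4 | h4
          · norm_num at h4
          · exact hpe h4
      rw [hvA] at hv
      rw [Nat.even_iff]
      omega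
    -- p ≠ 2, 3
    have hA' : ¬ (p : ℤ) ∣ m + 9 * e ^ 2 := by
      intro h1
      have h2 : (p : ℤ) ∣ 9 * e ^ 2 := by
        have := dvd_sub h1 hpm
        have h6 : m + 9 * e ^ 2 - m = 9 * e ^ 2 := by ring
        rwa [h6] at this
      rcases int_prime_dvd_of_dvd_mul_sq hp h2 with h4 | h4
      · have h5 : p ∣ 9 := by exact_mod_cast h4
        have h6 : p ∣ 3 := hp.dvd_of_dvd_pow (show p ∣ 3 ^ 2 by norm_num; exact h5)
        exact hp3 ((Nat.prime_dvd_prime_iff_eq hp (by norm_num)).mp h6)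
      · exact hpe h4
    have hB' : ¬ (p : ℤ) ∣ m - 16 * e ^ 2 := by
      intro h1
      have h2 : (p : ℤ) ∣ 16 * e ^ 2 := by
        have := dvd_sub hpm h1
        have h6 : m - (m - 16 * e ^ 2) = 16 * e ^ 2 := by ring
        rwa [h6] at this
      rcases int_prime_dvd_of_dvd_mul_sq hp h2 with h4 | h4
      · have h5 : p ∣ 16 := by exact_mod_cast h4
        have h6 : p ∣ 2 := hp.dvd_of_dvd_pow (show p ∣ 2 ^ 4 by norm_num; exact h5)
        exact hp2 ((Nat.prime_dvd_prime_iff_eq hp (by norm_num)).mp h6)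
      · exact hpe h4
    have hv := hval p hp
    rw [padicValInt.eq_zero_of_not_dvd hA', padicValInt.eq_zero_of_not_dvd hB'] at hv
    rw [Nat.even_iff]
    omega
  -- Claim 2: all valuations of A are even, except possibly at 5
  have claim2 : ∀ p : ℕ, p.Prime → p ≠ 5 → Even (padicValInt p (m + 9 * e ^ 2)) := by
    intro p hp hp5
    have : Fact p.Prime := ⟨hp⟩
    by_cases hpA : (p : ℤ) ∣ m + 9 * e ^ 2
    swap
    · rw [padicValInt.eq_zero_of_not_dvd hpA]; exact Even.zero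
    have hv := hval p hp
    rw [padicValInt.eq_zero_of_not_dvd (hAB p hp hp5 hpA)] at hv
    have h1 := claim1 p hp
    rw [Nat.even_iff] at h1 ⊢
    omega
  -- Claim 3: A > 0
  have claim3 : 0 < m + 9 * e ^ 2 := by
    by_contra hneg
    have h1 : m + 9 * e ^ 2 < 0 := lt_of_le_of_ne (not_lt.mp hneg) hA
    have he2 : 0 < e ^ 2 := by positivity
    have h2 : m < 0 := by linarith
    have h3 : m - 16 * e ^ 2 < 0 := by linarith
    have h4 : m * (m + 9 * e ^ 2) * (m - 16 * e ^ 2) < 0 :=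
      mul_neg_of_pos_of_neg (mul_pos_of_neg_of_neg h2 h1) h3
    have h5 : 0 ≤ n ^ 2 := sq_nonneg n
    linarith
  refine ⟨int_isSquare_natAbs_of_even_padicValInt hm claim1, ?_⟩
  by_cases h5 : Even (padicValInt 5 (m + 9 * e ^ 2))
  · obtain ⟨v, hv | hv⟩ := int_isSquare_natAbs_of_even_padicValInt hA (fun p hp => by
      by_cases hp5 : p = 5
      · subst hp5; exact h5
      · exact claim2 p hp hp5)
    · exact ⟨v, Or.inl hv⟩
    · exfalso
      have : 0 ≤ v ^ 2 := sq_nonneg v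
      linarith
  · have h5A : (5 : ℤ) * (m + 9 * e ^ 2) ≠ 0 := mul_ne_zero (by norm_num) hA
    obtain ⟨w, hw | hw⟩ := int_isSquare_natAbs_of_even_padicValInt h5A (fun p hp => by
      have : Fact p.Prime := ⟨hp⟩
      rw [padicValInt.mul (by norm_num) hA]
      by_cases hp5 : p = 5
      · subst hp5
        have h6 : padicValInt 5 (5 : ℤ) = 1 := by
          have := padicValInt_self (p := 5)
          simpa using this
        rw [h6]
        rw [Nat.even_iff] at h5 ⊢
        omega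
      · have h6 : padicValInt p (5 : ℤ) = 0 := by
          apply padicValInt.eq_zero_of_not_dvd
          intro h7
          have h8 : p ∣ 5 := by exact_mod_cast h7
          exact hp5 ((Nat.prime_dvd_prime_iff_eq hp (by norm_num)).mp h8)
        rw [h6, zero_add]
        exact claim2 p hp hp5)
    · have h6 : (5 : ℤ) ∣ w := by
        have h7 : (5 : ℤ) ∣ w ^ 2 := ⟨m + 9 * e ^ 2, hw.symm⟩
        exact (Int.prime_iff_natAbs_prime.mpr (by norm_num : Nat.Prime (5 : ℤ).natAbs)).dvd_of_dvd_pow h7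
      obtain ⟨v, hv⟩ := h6
      refine ⟨v, Or.inr ?_⟩
      rw [hv] at hw
      linarith
    · exfalso
      have : 0 ≤ w ^ 2 := sq_nonneg w
      linarith

/-- Reduction of a rational point to integer data. -/
theorem exists_int_model (x y : ℚ) (hy : y ≠ 0) (h : y ^ 2 = x * (x + 9) * (x - 16)) :
    ∃ m e n : ℤ, IsCoprime m e ∧ e ≠ 0 ∧ n ≠ 0 ∧ x = (m : ℚ) / (e : ℚ) ^ 2 ∧
      n ^ 2 = m * (m + 9 * e ^ 2) * (m - 16 * e ^ 2) := by
  set a : ℤ := x.num with ha
  set b : ℕ := x.den with hb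
  have hb0 : b ≠ 0 := x.den_nz
  have hbpos : (0 : ℤ) < (b : ℤ) := by exact_mod_cast Nat.pos_of_ne_zero hb0
  have hbQ : (b : ℚ) ≠ 0 := by exact_mod_cast hb0
  have hx : x = (a : ℚ) / (b : ℚ) := (Rat.num_div_den x).symm
  have hab : IsCoprime a (b : ℤ) := by
    rw [Int.isCoprime_iff_gcd_eq_one]
    exact x.reduced
  have hA : IsCoprime (a + 9 * (b : ℤ)) (b : ℤ) := by
    have := hab.add_mul_left_left 9
    simpa [mul_comm] using this
  have hB : IsCoprime (a - 16 * (b : ℤ)) (b : ℤ) := by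
    have := hab.add_mul_left_left (-16)
    have h2 : a + (b : ℤ) * (-16) = a - 16 * (b : ℤ) := by ring
    rwa [h2] at this
  have hK : IsCoprime (a * (a + 9 * (b : ℤ)) * (a - 16 * (b : ℤ))) ((b : ℤ) ^ 3) :=
    IsCoprime.pow_right ((hab.mul_left hA).mul_left hB)
  have hy2 : y ^ 2 = ((a * (a + 9 * (b : ℤ)) * (a - 16 * (b : ℤ)) : ℤ) : ℚ) / (((b : ℤ) ^ 3 : ℤ) : ℚ) := by
    rw [h, hx]
    push_cast
    field_simp
  have hb3pos : (0 : ℤ) < (b : ℤ) ^ 3 := by positivity
  have hcop : Nat.Coprime (a * (a + 9 * (b : ℤ)) * (a - 16 * (b : ℤ))).natAbs ((b : ℤ) ^ 3).natAbs := by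
    exact Int.isCoprime_iff_gcd_eq_one.mp hK
  have hnum : y.num ^ 2 = a * (a + 9 * (b : ℤ)) * (a - 16 * (b : ℤ)) := by
    rw [← Rat.num_pow, hy2]
    exact Rat.num_div_eq_of_coprime hb3pos hcop
  have hden : ((y.den ^ 2 : ℕ) : ℤ) = (b : ℤ) ^ 3 := by
    rw [← Rat.den_pow, hy2]
    exact Rat.den_div_eq_of_coprime hb3pos hcop
  have hden' : y.den ^ 2 = b ^ 3 := by exact_mod_cast hden
  have hbd : b ∣ y.den := by
    have h1 : b ^ 2 ∣ y.den ^ 2 := by
      rw [hden']
      exact ⟨b, by ring⟩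
    exact (Nat.pow_dvd_pow_iff two_ne_zero).mp h1
  obtain ⟨e, he⟩ := hbd
  have hbe : b = e ^ 2 := by
    have h1 : b ^ 2 * e ^ 2 = b ^ 2 * b := by
      have := hden'
      rw [he] at this
      calc b ^ 2 * e ^ 2 = (b * e) ^ 2 := by ring
        _ = b ^ 3 := this
        _ = b ^ 2 * b := by ring
    exact (Nat.eq_of_mul_eq_mul_left (by positivity) h1).symm
  have he0 : e ≠ 0 := by
    rintro rfl
    exact hb0 (by rw [hbe]; ring)
  refine ⟨a, (e : ℤ), y.num, ?_, by exact_mod_cast he0, Rat.num_ne_zero.mpr hy, ?_, ?_⟩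
  · have h1 : IsCoprime a ((e : ℤ) * (e : ℤ)) := by
      have : (b : ℤ) = (e : ℤ) * (e : ℤ) := by rw [hbe]; push_cast; ring
      rwa [this] at hab
    exact h1.of_mul_right_left
  · rw [hx, hbe]
    push_cast
    ring
  · rw [hnum, hbe]
    push_cast
    ring

/-- The 2-descent classes of a rational point of `y^2 = x (x + 9) (x - 16)` with `y ≠ 0`. -/
theorem descent_classes (x y : ℚ) (hy : y ≠ 0) (h : y ^ 2 = x * (x + 9) * (x - 16)) :
    (IsSquare x ∨ IsSquare (-x)) ∧ (IsSquare (x + 9) ∨ IsSquare (5 * (x + 9))) := by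
  obtain ⟨m, e, n, hme, he, hn, hx, hn2⟩ := exists_int_model x y hy h
  obtain ⟨⟨u, hu⟩, ⟨v, hv⟩⟩ := descent_classes_int hme he hn hn2
  have heQ : (e : ℚ) ≠ 0 := by exact_mod_cast he
  constructor
  · rcases hu with hu | hu
    · left
      refine ⟨(u : ℚ) / e, ?_⟩
      rw [hx, hu]
      push_cast
      field_simp
    · right
      refine ⟨(u : ℚ) / e, ?_⟩
      rw [hx, hu]
      push_cast
      field_simp
  · have hx9 : x + 9 = ((m + 9 * e ^ 2 : ℤ) : ℚ) / (e : ℚ) ^ 2 := by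
      rw [hx]
      push_cast
      field_simp
    rcases hv with hv | hv
    · left
      refine ⟨(v : ℚ) / e, ?_⟩
      rw [hx9, hv]
      push_cast
      field_simp
    · right
      refine ⟨5 * (v : ℚ) / e, ?_⟩
      rw [hx9, hv]
      push_cast
      field_simp

/-- The class lemma in the form consumed by the group-law side. -/
theorem class_B (x y : ℚ) (h : y ^ 2 = x * (x + 9) * (x - 16)) (hy : y ≠ 0) :
    (IsSquare x ∧ IsSquare (x + 9)) ∨ (IsSquare (-x) ∧ IsSquare (x + 9)) ∨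
      (IsSquare (-x) ∧ IsSquare (5 * (x + 9))) ∨ (IsSquare x ∧ IsSquare (5 * (x + 9))) := by
  obtain ⟨h1 | h1, h2 | h2⟩ := descent_classes x y hy h
  · exact Or.inl ⟨h1, h2⟩
  · exact Or.inr (Or.inr (Or.inr ⟨h1, h2⟩))
  · exact Or.inr (Or.inl ⟨h1, h2⟩)
  · exact Or.inr (Or.inr (Or.inl ⟨h1, h2⟩))

end Fermat.Agent.S51.H83
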