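import Mathlib

set_option autoImplicit false

namespace Fermat.Agent.S51.H06

open WeierstrassCurve

/-- The curve `y ^ 2 = x ^ 3 - 7 x ^ 2 - 144 x = x (x + 9) (x - 16)` (Cremona 15a1). -/
def E15 : WeierstrassCurve.Affine ℚ := ⟨0, -7, 0, -144, 0⟩

abbrev Pt : Type := E15.Point

lemma E15_equation_iff (x y : ℚ) : E15.Equation x y ↔ y ^ 2 = x * (x + 9) * (x - 16) := by
  rw [WeierstrassCurve.Affine.equation_iff]
  simp only [E15]
  constructor <;> intro h <;> linarith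

lemma E15_nonsingular {x y : ℚ} (h : y ^ 2 = x * (x + 9) * (x - 16)) : E15.Nonsingular x y := by
  rw [WeierstrassCurve.Affine.nonsingular_iff]
  refine ⟨(E15_equation_iff x y).mpr h, ?_⟩
  simp only [E15]
  by_contra hc
  push Not at hc
  obtain ⟨h1, h2⟩ := hc
  have hy : y = 0 := by linarith
  subst hy
  have h3 : 3 * x ^ 2 - 14 * x - 144 = 0 := by linarith
  have h4 : x * (x + 9) * (x - 16) = 0 := by linarith
  rcases mul_eq_zero.mp h4 with h5 | h5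
  · rcases mul_eq_zero.mp h5 with h6 | h6
    · subst h6; norm_num at h3
    · have : x = -9 := by linarith
      subst this; norm_num at h3
  · have : x = 16 := by linarith
    subst this; norm_num at h3

lemma eq_of_nonsingular {x y : ℚ} (h : E15.Nonsingular x y) : y ^ 2 = x * (x + 9) * (x - 16) :=
  (E15_equation_iff x y).mp h.1

/-- The affine point with given coordinates. -/
def mkPt (x y : ℚ) (h : y ^ 2 = x * (x + 9) * (x - 16)) : Pt :=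
  WeierstrassCurve.Affine.Point.some x y (E15_nonsingular h)

lemma some_eq_mkPt {x y : ℚ} (h : E15.Nonsingular x y) :
    (WeierstrassCurve.Affine.Point.some x y h : Pt) = mkPt x y (eq_of_nonsingular h) := rfl

lemma mkPt_ne_zero {x y : ℚ} (h : y ^ 2 = x * (x + 9) * (x - 16)) : mkPt x y h ≠ 0 :=
  WeierstrassCurve.Affine.Point.some_ne_zero _

lemma mkPt_inj {x y x' y' : ℚ} {h : y ^ 2 = x * (x + 9) * (x - 16)}
    {h' : y' ^ 2 = x' * (x' + 9) * (x' - 16)} (hP : mkPt x y h = mkPt x' y' h') :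
    x = x' ∧ y = y' := by
  simp only [mkPt, WeierstrassCurve.Affine.Point.some.injEq] at hP
  exact hP

lemma negY_eq (x y : ℚ) : E15.negY x y = -y := by
  simp [WeierstrassCurve.Affine.negY, E15]

/-- Doubling a point with `y = 0` gives zero. -/
lemma two_nsmul_mkPt_zero {x : ℚ} (h : (0 : ℚ) ^ 2 = x * (x + 9) * (x - 16)) :
    2 • mkPt x 0 h = 0 := by
  rw [two_nsmul]
  exact WeierstrassCurve.Affine.Point.add_self_of_Y_eq (by rw [negY_eq]; simp)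

/-- Doubling formula: for `y ≠ 0`, the `x`-coordinate of `2 (x, y)` is `(x²+144)²/(4y²)`. -/
lemma two_nsmul_mkPt {x y : ℚ} (h : y ^ 2 = x * (x + 9) * (x - 16)) (hy : y ≠ 0) :
    ∃ (y' : ℚ) (h' : y' ^ 2 = ((x ^ 2 + 144) ^ 2 / (4 * y ^ 2)) *
        (((x ^ 2 + 144) ^ 2 / (4 * y ^ 2)) + 9) * (((x ^ 2 + 144) ^ 2 / (4 * y ^ 2)) - 16)),
      2 • mkPt x y h = mkPt ((x ^ 2 + 144) ^ 2 / (4 * y ^ 2)) y' h' := by
  have hne : y ≠ E15.negY x y := by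
    rw [negY_eq]
    intro hc
    apply hy
    linarith
  have hadd := WeierstrassCurve.Affine.Point.add_self_of_Y_ne (h₁ := E15_nonsingular h) hne
  have hx : E15.addX x x (E15.slope x x y y) = (x ^ 2 + 144) ^ 2 / (4 * y ^ 2) := by
    rw [WeierstrassCurve.Affine.slope_of_Y_ne rfl hne, negY_eq]
    simp only [WeierstrassCurve.Affine.addX, E15]
    field_simp
    linear_combination (4 * (28 - 8 * x)) * h
  have hns := WeierstrassCurve.Affine.nonsingular_add (E15_nonsingular h) (E15_nonsingular h)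
    (fun hxy => hne hxy.2)
  have heq := eq_of_nonsingular hns
  rw [hx] at heq
  refine ⟨_, heq, ?_⟩
  rw [two_nsmul, mkPt, hadd]
  simp only [mkPt, WeierstrassCurve.Affine.Point.some.injEq]
  exact ⟨hx, trivial⟩

lemma neg_mkPt {x y : ℚ} (h : y ^ 2 = x * (x + 9) * (x - 16)) :
    ∃ h' : (-y) ^ 2 = x * (x + 9) * (x - 16), -mkPt x y h = mkPt x (-y) h' := by
  refine ⟨by rw [neg_sq]; exact h, ?_⟩
  simp only [mkPt, WeierstrassCurve.Affine.Point.neg_some, negY_eq]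

lemma mkPt_congr {x x' y : ℚ} (hx : x = x') (h : y ^ 2 = x * (x + 9) * (x - 16)) :
    ∃ h' : y ^ 2 = x' * (x' + 9) * (x' - 16), mkPt x y h = mkPt x' y h' := by
  subst hx
  exact ⟨h, rfl⟩

/-- Two points with the same `x`-coordinate are equal or opposite. -/
lemma mkPt_eq_or_eq_neg {x y y' : ℚ} (h : y ^ 2 = x * (x + 9) * (x - 16))
    (h' : y' ^ 2 = x * (x + 9) * (x - 16)) : mkPt x y' h' = mkPt x y h ∨ mkPt x y' h' = -mkPt x y h := by
  have hsq : y' ^ 2 = y ^ 2 := by rw [h, h']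
  rcases sq_eq_sq_iff_eq_or_eq_neg.mp hsq with hy | hy
  · left; subst hy; rfl
  · right
    obtain ⟨h'', hneg⟩ := neg_mkPt h
    rw [hneg]
    subst hy; rfl

/-- Secant addition formula: for `x₁ ≠ x₂`. -/
lemma mkPt_add_mkPt {x₁ y₁ x₂ y₂ : ℚ} (h₁ : y₁ ^ 2 = x₁ * (x₁ + 9) * (x₁ - 16))
    (h₂ : y₂ ^ 2 = x₂ * (x₂ + 9) * (x₂ - 16)) (hx : x₁ ≠ x₂) :
    ∃ (y₃ : ℚ) (h₃ : y₃ ^ 2 = (((y₁ - y₂) / (x₁ - x₂)) ^ 2 + 7 - x₁ - x₂) *
        ((((y₁ - y₂) / (x₁ - x₂)) ^ 2 + 7 - x₁ - x₂) + 9) *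
        ((((y₁ - y₂) / (x₁ - x₂)) ^ 2 + 7 - x₁ - x₂) - 16)),
      mkPt x₁ y₁ h₁ + mkPt x₂ y₂ h₂ = mkPt (((y₁ - y₂) / (x₁ - x₂)) ^ 2 + 7 - x₁ - x₂) y₃ h₃ := by
  have hadd := WeierstrassCurve.Affine.Point.add_of_X_ne (h₁ := E15_nonsingular h₁)
    (h₂ := E15_nonsingular h₂) hx
  have hxx : E15.addX x₁ x₂ (E15.slope x₁ x₂ y₁ y₂) = ((y₁ - y₂) / (x₁ - x₂)) ^ 2 + 7 - x₁ - x₂ := by
    rw [WeierstrassCurve.Affine.slope_of_X_ne hx]
    simp only [WeierstrassCurve.Affine.addX, E15]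
    ring
  have hns := WeierstrassCurve.Affine.nonsingular_add (E15_nonsingular h₁) (E15_nonsingular h₂)
    (fun hxy => hx hxy.1)
  have heq := eq_of_nonsingular hns
  rw [hxx] at heq
  refine ⟨_, heq, ?_⟩
  rw [mkPt, mkPt, hadd]
  simp only [mkPt, WeierstrassCurve.Affine.Point.some.injEq]
  exact ⟨hxx, trivial⟩

/-- The class identity: if `e` is a root of the cubic, then
`(x₁ - e) (x₂ - e) (x₃ - e)` is the square of the value at `e` of the secant line. -/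
lemma secant_class {x₁ y₁ x₂ y₂ e : ℚ} (h₁ : y₁ ^ 2 = x₁ * (x₁ + 9) * (x₁ - 16))
    (h₂ : y₂ ^ 2 = x₂ * (x₂ + 9) * (x₂ - 16)) (hx : x₁ ≠ x₂) (he : e * (e + 9) * (e - 16) = 0) :
    (x₁ - e) * (x₂ - e) * ((((y₁ - y₂) / (x₁ - x₂)) ^ 2 + 7 - x₁ - x₂) - e) =
      ((y₁ - y₂) / (x₁ - x₂) * (e - x₁) + y₁) ^ 2 := by
  obtain ⟨l, hl⟩ : ∃ l : ℚ, l = (y₁ - y₂) / (x₁ - x₂) := ⟨_, rfl⟩
  rw [← hl]
  have hd : x₁ - x₂ ≠ 0 := sub_ne_zero.mpr hx
  have hl' : l * (x₁ - x₂) = y₁ - y₂ := by rw [hl]; field_simp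
  have key : (x₂ - x₁) * ((x₁ - e) * (x₂ - e) * ((l ^ 2 + 7 - x₁ - x₂) - e) -
      (l * (e - x₁) + y₁) ^ 2) = 0 := by
    linear_combination (-(x₂ - e)) * h₁ + (-(e - x₁)) * h₂ +
      ((e - x₁) * (y₂ + l * (x₂ - x₁) + y₁)) * hl' + (-(x₂ - x₁)) * he
  have hd' : x₂ - x₁ ≠ 0 := sub_ne_zero.mpr (Ne.symm hx)
  have := (mul_eq_zero.mp key).resolve_left hd'
  linarith

/-- Halving: a point all of whose `x - eᵢ` are squares is a double. -/
lemma exists_half {x y r₁ r₂ r₃ : ℚ} (h : y ^ 2 = x * (x + 9) * (x - 16)) (h₁ : x = r₁ ^ 2)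
    (h₂ : x + 9 = r₂ ^ 2) (h₃ : x - 16 = r₃ ^ 2) : ∃ R : Pt, 2 • R = mkPt x y h := by
  obtain ⟨U, hU⟩ : ∃ U : ℚ, U = x + r₁ * r₂ + r₁ * r₃ + r₂ * r₃ := ⟨_, rfl⟩
  obtain ⟨w, hw⟩ : ∃ w : ℚ, w = (r₁ + r₂) * (r₁ + r₃) * (r₂ + r₃) := ⟨_, rfl⟩
  have hu1 : U = (r₁ + r₂) * (r₁ + r₃) := by rw [hU, h₁]; ring
  have hu2 : U + 9 = (r₁ + r₂) * (r₂ + r₃) := by rw [hU]; linear_combination h₂
  have hu3 : U - 16 = (r₁ + r₃) * (r₂ + r₃) := by rw [hU]; linear_combination h₃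
  have hcurve : w ^ 2 = U * (U + 9) * (U - 16) := by
    rw [hu2, hu3, hu1, hw]; ring
  have e9 : (9 : ℚ) = r₂ ^ 2 - r₁ ^ 2 := by linarith
  have e16 : (16 : ℚ) = r₁ ^ 2 - r₃ ^ 2 := by linarith
  have e144 : (144 : ℚ) = (r₂ ^ 2 - r₁ ^ 2) * (r₁ ^ 2 - r₃ ^ 2) := by
    rw [← e9, ← e16]; norm_num
  have hU144 : U ^ 2 + 144 = 2 * r₁ * w := by
    rw [hu1, e144, hw]; ring
  have h12 : r₁ + r₂ ≠ 0 := by
    intro hc
    have : r₂ = -r₁ := by linarith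
    rw [this] at e9
    norm_num at e9
  have h13 : r₁ + r₃ ≠ 0 := by
    intro hc
    have : r₃ = -r₁ := by linarith
    rw [this] at e16
    norm_num at e16
  have h23 : r₂ + r₃ ≠ 0 := by
    intro hc
    have : r₃ = -r₂ := by linarith
    rw [this] at e16
    have : (25 : ℚ) = 0 := by linarith
    norm_num at this
  have hw0 : w ≠ 0 := by
    rw [hw]; exact mul_ne_zero (mul_ne_zero h12 h13) h23
  obtain ⟨y', h', hdbl⟩ := two_nsmul_mkPt hcurve hw0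
  have hxx : (U ^ 2 + 144) ^ 2 / (4 * w ^ 2) = x := by
    rw [hU144, h₁]; field_simp; ring
  obtain ⟨h'', hR'⟩ := mkPt_congr hxx h'
  have hR : 2 • mkPt U w hcurve = mkPt x y' h'' := by rw [hdbl, hR']
  rcases mkPt_eq_or_eq_neg h h'' with heq | heq
  · exact ⟨mkPt U w hcurve, by rw [hR, heq]⟩
  · refine ⟨-mkPt U w hcurve, ?_⟩
    rw [neg_nsmul, hR, heq, neg_neg]

end Fermat.Agent.S51.H06
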