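import Fermat.Agent.S51.DescentCurve_helper6

set_option autoImplicit false

namespace Fermat.Agent.S51.H06

local notation "v₂" => padicValRat 2

lemma v2_two : v₂ (2 : ℚ) = 1 := padicValRat.self (by norm_num)

lemma v2_four : v₂ (4 : ℚ) = 2 := by
  have : (4 : ℚ) = 2 ^ 2 := by norm_num
  rw [this, padicValRat.pow, v2_two]; norm_num

lemma v2_nine : v₂ (9 : ℚ) = 0 := by
  have : (9 : ℚ) = ((9 : ℕ) : ℚ) := by norm_num
  rw [this, padicValRat.of_nat]
  have : padicValNat 2 9 = 0 := padicValNat.eq_zero_of_not_dvd (by norm_num)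
  rw [this]; rfl

lemma v2_sixteen : v₂ (16 : ℚ) = 4 := by
  have : (16 : ℚ) = 2 ^ 4 := by norm_num
  rw [this, padicValRat.pow, v2_two]; norm_num

lemma v2_144 : v₂ (144 : ℚ) = 4 := by
  have : (144 : ℚ) = 16 * 9 := by norm_num
  rw [this, padicValRat.mul (by norm_num) (by norm_num), v2_sixteen, v2_nine]; norm_num

lemma v2_neg (x : ℚ) : v₂ (-x) = v₂ x := padicValRat.neg x

/-- A rational of `2`-adic valuation zero plus one has positive valuation. -/
lemma v2_add_one_pos {u : ℚ} (hu0 : u ≠ 0) (hu : v₂ u = 0) (hu1 : u + 1 ≠ 0) :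
    1 ≤ v₂ (u + 1) := by
  have hdef : v₂ u = padicValInt 2 u.num - padicValNat 2 u.den := rfl
  have hcop : Nat.Coprime u.num.natAbs u.den := u.reduced
  have hnum0 : u.num ≠ 0 := Rat.num_ne_zero.mpr hu0
  have hden0 : u.den ≠ 0 := u.den_ne_zero
  -- both numerator and denominator are odd
  have hodd : ¬ (2 : ℤ) ∣ u.num ∧ ¬ 2 ∣ u.den := by
    by_cases h2n : (2 : ℤ) ∣ u.num
    · exfalso
      have h2d : ¬ 2 ∣ u.den := by
        intro h2d
        have h2n' : 2 ∣ u.num.natAbs := Int.natCast_dvd.mp (by simpa using h2n)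
        have := Nat.dvd_gcd h2n' h2d
        rw [hcop] at this
        norm_num at this
      have hd : padicValNat 2 u.den = 0 := padicValNat.eq_zero_of_not_dvd h2d
      have hn : 1 ≤ padicValInt 2 u.num := by
        have := (padicValInt_dvd_iff (p := 2) 1 u.num).mp (by simpa using h2n)
        rcases this with h | h
        · exact absurd h hnum0
        · exact_mod_cast h
      rw [hdef, hd, Nat.cast_zero, sub_zero] at hu
      have h1 : (1 : ℤ) ≤ (padicValInt 2 u.num : ℤ) := by exact_mod_cast hn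
      rw [hu] at h1
      exact absurd h1 (by norm_num)
    · refine ⟨h2n, ?_⟩
      intro h2d
      have hn : padicValInt 2 u.num = 0 := padicValInt.eq_zero_of_not_dvd (by simpa using h2n)
      have hd : 1 ≤ padicValNat 2 u.den := one_le_padicValNat_of_dvd hden0 h2d
      rw [hdef, hn, Nat.cast_zero, zero_sub, neg_eq_zero] at hu
      have h1 : (1 : ℤ) ≤ (padicValNat 2 u.den : ℤ) := by exact_mod_cast hd
      rw [hu] at h1
      exact absurd h1 (by norm_num)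
  obtain ⟨hn, hd⟩ := hodd
  have hsum : u + 1 = ((u.num + u.den : ℤ) : ℚ) / ((u.den : ℤ) : ℚ) := by
    have hd0 : ((u.den : ℤ) : ℚ) ≠ 0 := by exact_mod_cast hden0
    rw [eq_div_iff hd0]
    have := Rat.num_div_den u
    push_cast
    have h2 : u * (u.den : ℚ) = u.num := by
      rw [mul_comm]; exact Rat.den_mul_eq_num u
    linear_combination h2
  have hs0 : (u.num + u.den : ℤ) ≠ 0 := by
    intro h0
    apply hu1
    rw [hsum, h0]; simp
  have hd0' : ((u.den : ℤ)) ≠ 0 := by exact_mod_cast hden0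
  rw [hsum, padicValRat.div (by exact_mod_cast hs0) (by exact_mod_cast hd0'), padicValRat.of_int,
    padicValRat.of_int]
  have hden_val : padicValInt 2 (u.den : ℤ) = 0 := by
    apply padicValInt.eq_zero_of_not_dvd
    intro h
    apply hd
    exact_mod_cast h
  have heven : (2 : ℤ) ∣ u.num + u.den := by
    have h1 : u.num % 2 = 1 := by
      have := Int.emod_two_eq_zero_or_one u.num
      rcases this with h | h
      · exact absurd (Int.dvd_of_emod_eq_zero h) hn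
      · exact h
    have h2 : (u.den : ℤ) % 2 = 1 := by
      have := Int.emod_two_eq_zero_or_one (u.den : ℤ)
      rcases this with h | h
      · exfalso; apply hd; exact_mod_cast Int.dvd_of_emod_eq_zero h
      · exact h
    omega
  have hsum_val : 1 ≤ padicValInt 2 (u.num + u.den) := by
    have := (padicValInt_dvd_iff (p := 2) 1 (u.num + u.den)).mp (by simpa using heven)
    rcases this with h | h
    · exact absurd h hs0
    · exact h
  rw [hden_val]
  have : (1 : ℤ) ≤ (padicValInt 2 (u.num + u.den) : ℤ) := by exact_mod_cast hsum_val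
  simpa using this

/-- Two rationals of the same `2`-adic valuation add up to something of larger valuation. -/
lemma v2_add_of_eq {x y : ℚ} (hx : x ≠ 0) (hy : y ≠ 0) (hxy : x + y ≠ 0) (h : v₂ x = v₂ y) :
    v₂ x + 1 ≤ v₂ (x + y) := by
  have hu : v₂ (x / y) = 0 := by
    rw [padicValRat.div hx hy, h, sub_self]
  have hu1 : x / y + 1 ≠ 0 := by
    intro h0
    apply hxy
    field_simp at h0
    simpa using h0
  have h1 := v2_add_one_pos (div_ne_zero hx hy) hu hu1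
  have hprod : x + y = y * (x / y + 1) := by field_simp
  rw [hprod, padicValRat.mul hy hu1, h]
  linarith

/-- Valuation of a sum when valuations differ. -/
lemma v2_add_of_lt {x y : ℚ} (hx : x ≠ 0) (hy : y ≠ 0) (h : v₂ x < v₂ y) :
    v₂ (x + y) = v₂ x := by
  have hxy : x + y ≠ 0 := by
    intro h0
    have : x = -y := by linarith
    rw [this, v2_neg] at h
    exact lt_irrefl _ h
  rw [padicValRat.add_eq_min hxy hx hy (ne_of_lt h), min_eq_left (le_of_lt h)]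

lemma v2_add_ge {x y : ℚ} (hxy : x + y ≠ 0) : min (v₂ x) (v₂ y) ≤ v₂ (x + y) :=
  padicValRat.min_le_padicValRat_add hxy

lemma factors_ne_zero {x y : ℚ} (h : y ^ 2 = x * (x + 9) * (x - 16)) (hy : y ≠ 0) :
    x ≠ 0 ∧ x + 9 ≠ 0 ∧ x - 16 ≠ 0 := by
  have h0 : x * (x + 9) * (x - 16) ≠ 0 := by rw [← h]; exact pow_ne_zero 2 hy
  exact ⟨left_ne_zero_of_mul (left_ne_zero_of_mul h0), right_ne_zero_of_mul (left_ne_zero_of_mul h0),
    right_ne_zero_of_mul h0⟩

lemma sq_add_144_ne_zero (x : ℚ) : x ^ 2 + 144 ≠ 0 := by positivity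

lemma v2_sq (x : ℚ) : v₂ (x ^ 2) = 2 * v₂ x := by
  rw [padicValRat.pow]; norm_num

lemma v2_sq_add {x : ℚ} (hx : x ≠ 0) :
    (v₂ x < 2 → v₂ (x ^ 2 + 144) = 2 * v₂ x) ∧ (v₂ x = 2 → 5 ≤ v₂ (x ^ 2 + 144)) ∧
      (2 < v₂ x → v₂ (x ^ 2 + 144) = 4) := by
  have hx2 : x ^ 2 ≠ 0 := pow_ne_zero 2 hx
  have h144 : (144 : ℚ) ≠ 0 := by norm_num
  refine ⟨fun h => ?_, fun h => ?_, fun h => ?_⟩
  · rw [v2_add_of_lt hx2 h144 (by rw [v2_sq, v2_144]; linarith), v2_sq]
  · have := v2_add_of_eq hx2 h144 (sq_add_144_ne_zero x) (by rw [v2_sq, v2_144, h]; norm_num)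
    rw [v2_sq, h] at this
    linarith
  · rw [add_comm, v2_add_of_lt h144 hx2 (by rw [v2_sq, v2_144]; linarith), v2_144]

lemma v2_add9 {x : ℚ} (hx : x ≠ 0) (hx9 : x + 9 ≠ 0) :
    (v₂ x < 0 → v₂ (x + 9) = v₂ x) ∧ (v₂ x = 0 → 1 ≤ v₂ (x + 9)) ∧
      (0 < v₂ x → v₂ (x + 9) = 0) := by
  have h9 : (9 : ℚ) ≠ 0 := by norm_num
  refine ⟨fun h => ?_, fun h => ?_, fun h => ?_⟩
  · rw [v2_add_of_lt hx h9 (by rw [v2_nine]; exact h)]
  · have := v2_add_of_eq hx h9 hx9 (by rw [v2_nine, h])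
    rw [h] at this
    linarith
  · rw [add_comm, v2_add_of_lt h9 hx (by rw [v2_nine]; exact h), v2_nine]

lemma v2_sub16 {x : ℚ} (hx : x ≠ 0) (hx16 : x - 16 ≠ 0) :
    (v₂ x < 4 → v₂ (x - 16) = v₂ x) ∧ (4 ≤ v₂ x → 4 ≤ v₂ (x - 16)) := by
  have h16 : (-16 : ℚ) ≠ 0 := by norm_num
  have hv16 : v₂ (-16 : ℚ) = 4 := by rw [v2_neg, v2_sixteen]
  have hsub : x - 16 = x + (-16) := by ring
  refine ⟨fun h => ?_, fun h => ?_⟩
  · rw [hsub, v2_add_of_lt hx h16 (by rw [hv16]; exact h)]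
  · have := v2_add_ge (x := x) (y := -16) (by rw [← hsub]; exact hx16)
    rw [hv16] at this
    rw [hsub]
    exact le_trans (le_min h le_rfl) this

lemma v2_delta {x y : ℚ} (h : y ^ 2 = x * (x + 9) * (x - 16)) (hy : y ≠ 0) :
    v₂ ((x ^ 2 + 144) ^ 2 / (4 * y ^ 2)) =
      2 * v₂ (x ^ 2 + 144) - (2 + v₂ x + v₂ (x + 9) + v₂ (x - 16)) := by
  obtain ⟨hx, hx9, hx16⟩ := factors_ne_zero h hy
  have h4 : (4 : ℚ) ≠ 0 := by norm_num
  rw [h, padicValRat.div (pow_ne_zero 2 (sq_add_144_ne_zero x))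
    (mul_ne_zero h4 (mul_ne_zero (mul_ne_zero hx hx9) hx16)),
    padicValRat.mul h4 (mul_ne_zero (mul_ne_zero hx hx9) hx16),
    padicValRat.mul (mul_ne_zero hx hx9) hx16, padicValRat.mul hx hx9, v2_four, v2_sq]
  ring

lemma v2_delta_cases {x y : ℚ} (h : y ^ 2 = x * (x + 9) * (x - 16)) (hy : y ≠ 0) :
    (v₂ x < 0 → v₂ ((x ^ 2 + 144) ^ 2 / (4 * y ^ 2)) = v₂ x - 2) ∧
    (v₂ x = 0 → v₂ ((x ^ 2 + 144) ^ 2 / (4 * y ^ 2)) < 0) ∧
    (v₂ x = 1 → v₂ ((x ^ 2 + 144) ^ 2 / (4 * y ^ 2)) = 0) ∧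
    (v₂ x = 2 → 4 ≤ v₂ ((x ^ 2 + 144) ^ 2 / (4 * y ^ 2))) ∧
    (v₂ x = 3 → v₂ ((x ^ 2 + 144) ^ 2 / (4 * y ^ 2)) = 0) ∧
    (4 ≤ v₂ x → v₂ ((x ^ 2 + 144) ^ 2 / (4 * y ^ 2)) < 0) := by
  obtain ⟨hx, hx9, hx16⟩ := factors_ne_zero h hy
  obtain ⟨a1, a2, a3⟩ := v2_sq_add hx
  obtain ⟨b1, b2, b3⟩ := v2_add9 hx hx9
  obtain ⟨c1, c2⟩ := v2_sub16 hx hx16
  rw [v2_delta h hy]
  refine ⟨fun hv => ?_, fun hv => ?_, fun hv => ?_, fun hv => ?_, fun hv => ?_, fun hv => ?_⟩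
  · rw [a1 (by linarith), b1 hv, c1 (by linarith)]; ring
  · have := b2 hv
    rw [a1 (by linarith), c1 (by linarith), hv]; linarith
  · rw [a1 (by linarith), b3 (by linarith), c1 (by linarith), hv]; norm_num
  · have := a2 hv
    rw [b3 (by linarith), c1 (by linarith), hv]; linarith
  · rw [a3 (by linarith), b3 (by linarith), c1 (by linarith), hv]; norm_num
  · have := c2 hv
    rw [a3 (by linarith), b3 (by linarith)]; linarith

/-- The "kernel of reduction" at `2` of the model: affine points with `v₂ x < 0`. -/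
def InE1 (P : Pt) : Prop :=
  ∃ (x y : ℚ) (h : y ^ 2 = x * (x + 9) * (x - 16)), P = mkPt x y h ∧ v₂ x < 0

lemma dbl_cases {x y : ℚ} (h : y ^ 2 = x * (x + 9) * (x - 16)) :
    2 • mkPt x y h = 0 ∨ ∃ (x' y' : ℚ) (h' : y' ^ 2 = x' * (x' + 9) * (x' - 16)),
      2 • mkPt x y h = mkPt x' y' h' ∧ y ≠ 0 ∧ x' = (x ^ 2 + 144) ^ 2 / (4 * y ^ 2) ∧
      (v₂ x < 0 → v₂ x' = v₂ x - 2) ∧ (v₂ x = 0 → v₂ x' < 0) ∧ (v₂ x = 1 → v₂ x' = 0) ∧
      (v₂ x = 2 → 4 ≤ v₂ x') ∧ (v₂ x = 3 → v₂ x' = 0) ∧ (4 ≤ v₂ x → v₂ x' < 0) := by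
  by_cases hy : y = 0
  · left
    subst hy
    exact two_nsmul_mkPt_zero h
  · right
    obtain ⟨y', h', hd⟩ := two_nsmul_mkPt h hy
    exact ⟨_, y', h', hd, hy, rfl, v2_delta_cases h hy⟩

lemma y_ne_zero_of_v2_neg {x y : ℚ} (h : y ^ 2 = x * (x + 9) * (x - 16)) (hv : v₂ x < 0) :
    y ≠ 0 := by
  rintro rfl
  have h0 : x * (x + 9) * (x - 16) = 0 := by rw [← h]; norm_num
  rcases mul_eq_zero.mp h0 with h1 | h1
  · rcases mul_eq_zero.mp h1 with h2 | h2
    · subst h2; simp at hv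
    · have : x = -9 := by linarith
      rw [this, v2_neg, v2_nine] at hv
      exact lt_irrefl _ hv
  · have : x = 16 := by linarith
    rw [this, v2_sixteen] at hv
    norm_num at hv

lemma InE1.two_nsmul {x y : ℚ} (h : y ^ 2 = x * (x + 9) * (x - 16)) (hv : v₂ x < 0) :
    ∃ (x' y' : ℚ) (h' : y' ^ 2 = x' * (x' + 9) * (x' - 16)),
      2 • mkPt x y h = mkPt x' y' h' ∧ v₂ x' = v₂ x - 2 := by
  have hy := y_ne_zero_of_v2_neg h hv
  obtain ⟨y', h', hd⟩ := two_nsmul_mkPt h hy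
  exact ⟨_, y', h', hd, (v2_delta_cases h hy).1 hv⟩

lemma four_nsmul_eq (P : Pt) : 4 • P = 2 • (2 • P) := by
  rw [← mul_nsmul]

/-- Four times any rational point is zero or lies in the kernel of reduction. -/
lemma four_nsmul_cases (P : Pt) : 4 • P = 0 ∨ InE1 (4 • P) := by
  rw [four_nsmul_eq]
  rcases P with _ | ⟨x, y, hns⟩
  · left
    show 2 • (2 • (0 : Pt)) = 0
    simp
  · rw [some_eq_mkPt hns]
    rcases dbl_cases (eq_of_nonsingular hns) with h2 | ⟨x', y', h', h2, -, -, i1, i2, i3, i4, i5, i6⟩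
    · left; rw [h2]; simp
    · rw [h2]
      rcases dbl_cases h' with h4 | ⟨x'', y'', h'', h4, -, -, j1, j2, j3, j4, j5, j6⟩
      · left; exact h4
      · right
        refine ⟨x'', y'', h'', h4, ?_⟩
        have hcase : v₂ x < 0 ∨ v₂ x = 0 ∨ v₂ x = 1 ∨ v₂ x = 2 ∨ v₂ x = 3 ∨ 4 ≤ v₂ x := by omega
        rcases hcase with hc | hc | hc | hc | hc | hc
        · have e1 := i1 hc
          have e2 := j1 (by linarith)
          linarith
        · have e1 := i2 hc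
          have e2 := j1 e1
          linarith
        · exact j2 (i3 hc)
        · exact j6 (i4 hc)
        · exact j2 (i5 hc)
        · have e1 := i6 hc
          have e2 := j1 e1
          linarith

end Fermat.Agent.S51.H06
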