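import Mathlib
import Fermat.Agent.S51.DescentCurve_helper6
import Fermat.Agent.S51.DescentVal_helper6
import Fermat.Agent.S51.DescentClasses_helper83

set_option autoImplicit false

namespace Fermat.Agent.S51.H83

open Fermat.Agent.S51.H06

lemma two_nsmul_eq_zero_of_y_eq_zero {x y : ℚ} (h : y ^ 2 = x * (x + 9) * (x - 16))
    (hy : y = 0) : 2 • mkPt x y h = 0 := by
  subst hy
  exact two_nsmul_mkPt_zero h

lemma four_nsmul_eq_zero_of_two {P : Pt} (h : 2 • P = 0) : 4 • P = 0 := by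
  rw [four_nsmul_eq, h, nsmul_zero]

/-- The points with `x = 36` or `x = -4` are killed by `4`. -/
lemma four_nsmul_eq_zero_of_x {x y : ℚ} (h : y ^ 2 = x * (x + 9) * (x - 16))
    (hx : x = 36 ∨ x = -4) : 4 • mkPt x y h = 0 := by
  have hy : y ≠ 0 := by
    rintro rfl
    rcases hx with rfl | rfl <;> norm_num at h
  obtain ⟨y', h', hd⟩ := two_nsmul_mkPt h hy
  have hx' : (x ^ 2 + 144) ^ 2 / (4 * y ^ 2) = 16 := by
    rw [h]
    rcases hx with rfl | rfl <;> norm_num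
  obtain ⟨h'', hc⟩ := mkPt_congr hx' h'
  have hy' : y' = 0 := by
    have h0 : y' ^ 2 = 0 := by rw [h'']; norm_num
    exact pow_eq_zero_iff two_ne_zero |>.mp h0
  rw [four_nsmul_eq, hd, hc]
  exact two_nsmul_eq_zero_of_y_eq_zero h'' hy'

/-- If the sum of two points has all three `x - eᵢ` squares, it is a double. -/
lemma add_is_double {x y a b : ℚ} (h : y ^ 2 = x * (x + 9) * (x - 16))
    (hab : b ^ 2 = a * (a + 9) * (a - 16)) (hxa : x ≠ a) {c₁ c₂ c₃ : ℚ}
    (h₁ : ((y - b) / (x - a)) ^ 2 + 7 - x - a = c₁ ^ 2)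
    (h₂ : (x + 9) * (a + 9) = c₂ ^ 2) (hc₂ : c₂ ≠ 0)
    (h₃ : (x - 16) * (a - 16) = c₃ ^ 2) (hc₃ : c₃ ≠ 0) :
    ∃ R : Pt, mkPt x y h + mkPt a b hab = 2 • R := by
  obtain ⟨y₃, h₃', hadd⟩ := mkPt_add_mkPt h hab hxa
  have s9 := secant_class (e := -9) h hab hxa (by norm_num)
  have s16 := secant_class (e := 16) h hab hxa (by norm_num)
  have k2 : (((y - b) / (x - a)) ^ 2 + 7 - x - a + 9) * c₂ ^ 2 =
      (((y - b) / (x - a)) * (-9 - x) + y) ^ 2 := by
    rw [← h₂]; linear_combination s9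
  have k3 : (((y - b) / (x - a)) ^ 2 + 7 - x - a - 16) * c₃ ^ 2 =
      (((y - b) / (x - a)) * (16 - x) + y) ^ 2 := by
    rw [← h₃]; linear_combination s16
  have e2 : ((y - b) / (x - a)) ^ 2 + 7 - x - a + 9 =
      ((((y - b) / (x - a)) * (-9 - x) + y) / c₂) ^ 2 := by
    rw [div_pow _ c₂, ← k2]
    field_simp
  have e3 : ((y - b) / (x - a)) ^ 2 + 7 - x - a - 16 =
      ((((y - b) / (x - a)) * (16 - x) + y) / c₃) ^ 2 := by
    rw [div_pow _ c₃, ← k3]
    field_simp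
  obtain ⟨R, hR⟩ := exists_half h₃' h₁ e2 e3
  exact ⟨R, by rw [hadd, hR]⟩

/-- Weak Mordell-Weil: every rational point is a 4-torsion point plus a double. -/
theorem exists_torsion_add_double (P : Pt) : ∃ T R : Pt, 4 • T = 0 ∧ P = T + 2 • R := by
  rcases P with _ | ⟨x, y, hns⟩
  · exact ⟨0, 0, nsmul_zero 4, by rw [nsmul_zero, add_zero]; rfl⟩
  have h := eq_of_nonsingular hns
  show ∃ T R : Pt, 4 • T = 0 ∧ mkPt x y h = T + 2 • R
  by_cases hy : y = 0
  · exact ⟨mkPt x y h, 0, four_nsmul_eq_zero_of_two (two_nsmul_eq_zero_of_y_eq_zero h hy),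
      by rw [nsmul_zero, add_zero]⟩
  obtain ⟨hx0, hx9, hx16⟩ := factors_ne_zero h hy
  have hx16eq : x - 16 = y ^ 2 / (x * (x + 9)) := by
    rw [h]; field_simp
  rcases class_B x y h hy with ⟨⟨r₁, hr₁⟩, ⟨r₂, hr₂⟩⟩ | ⟨⟨r₁, hr₁⟩, ⟨r₂, hr₂⟩⟩ |
    ⟨⟨r₁, hr₁⟩, ⟨s, hs⟩⟩ | ⟨⟨r₁, hr₁⟩, ⟨s, hs⟩⟩
  · -- class (1, 1): the point itself is a double
    have hr₁' : x = r₁ ^ 2 := by rw [hr₁]; ring
    have hr₂' : x + 9 = r₂ ^ 2 := by rw [hr₂]; ring
    have hr₁0 : r₁ ≠ 0 := by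
      rintro rfl
      exact hx0 (by rw [hr₁']; ring)
    have hr₂0 : r₂ ≠ 0 := by
      rintro rfl
      exact hx9 (by rw [hr₂']; ring)
    have h3 : x - 16 = (y / (r₁ * r₂)) ^ 2 := by
      rw [div_pow, mul_pow, ← hr₁', ← hr₂', hx16eq]
    obtain ⟨R, hR⟩ := exists_half h hr₁' hr₂' h3
    exact ⟨0, R, nsmul_zero 4, by rw [hR, zero_add]⟩
  · -- class (-1, 1): translate by (0, 0)
    have hr₁' : -x = r₁ ^ 2 := by rw [hr₁]; ring
    have hr₂' : x + 9 = r₂ ^ 2 := by rw [hr₂]; ring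
    have hr₁0 : r₁ ≠ 0 := by
      rintro rfl
      exact hx0 (by linarith)
    have hr₂0 : r₂ ≠ 0 := by
      rintro rfl
      exact hx9 (by rw [hr₂']; ring)
    have hT : (0 : ℚ) ^ 2 = 0 * (0 + 9) * (0 - 16) := by norm_num
    have e1 : (12 / r₁) ^ 2 = -144 / x := by
      rw [div_pow, ← hr₁']
      field_simp
      ring
    have e3 : (4 * y / (r₁ * r₂)) ^ 2 = 16 * y ^ 2 / ((-x) * (x + 9)) := by
      rw [div_pow, mul_pow, mul_pow, ← hr₁', ← hr₂']
      norm_num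
    obtain ⟨R, hR⟩ := add_is_double h hT hx0 (c₁ := 12 / r₁) (c₂ := 3 * r₂)
      (c₃ := 4 * y / (r₁ * r₂))
      (by rw [e1, sub_zero, sub_zero, sub_zero, div_pow, h]; field_simp; ring)
      (by rw [hr₂']; ring) (mul_ne_zero (by norm_num) hr₂0)
      (by rw [e3, hx16eq]; field_simp; ring)
      (div_ne_zero (mul_ne_zero (by norm_num) hy) (mul_ne_zero hr₁0 hr₂0))
    have h2T : 2 • mkPt 0 0 hT = 0 := two_nsmul_mkPt_zero hT
    refine ⟨mkPt 0 0 hT, R, four_nsmul_eq_zero_of_two h2T, ?_⟩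
    calc mkPt x y h = mkPt x y h + 2 • mkPt 0 0 hT := by rw [h2T, add_zero]
      _ = mkPt 0 0 hT + (mkPt x y h + mkPt 0 0 hT) := by rw [two_nsmul]; abel
      _ = mkPt 0 0 hT + 2 • R := by rw [hR]
  · -- class (-1, 5): translate by (-4, 20)
    have hr₁' : -x = r₁ ^ 2 := by rw [hr₁]; ring
    have hs' : 5 * (x + 9) = s ^ 2 := by rw [hs]; ring
    have hr₁0 : r₁ ≠ 0 := by
      rintro rfl
      exact hx0 (by linarith)
    have hs0 : s ≠ 0 := by
      rintro rfl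
      exact hx9 (by linarith)
    have hQ : (20 : ℚ) ^ 2 = (-4) * (-4 + 9) * (-4 - 16) := by norm_num
    by_cases hx4 : x = -4
    · exact ⟨mkPt x y h, 0, four_nsmul_eq_zero_of_x h (Or.inr hx4), by rw [nsmul_zero, add_zero]⟩
    have s0 := secant_class (e := 0) h hQ hx4 (by norm_num)
    have k1 : (((y - 20) / (x - -4)) ^ 2 + 7 - x - -4) * (2 * r₁) ^ 2 =
        ((y - 20) / (x - -4) * (0 - x) + y) ^ 2 := by
      rw [mul_pow, ← hr₁']; linear_combination s0
    have e3 : (10 * y / (r₁ * s)) ^ 2 = 100 * y ^ 2 / ((-x) * (5 * (x + 9))) := by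
      rw [div_pow, mul_pow, mul_pow, ← hr₁', ← hs']
      norm_num
    obtain ⟨R, hR⟩ := add_is_double h hQ hx4
      (c₁ := ((y - 20) / (x - -4) * (0 - x) + y) / (2 * r₁)) (c₂ := s)
      (c₃ := 10 * y / (r₁ * s))
      (by rw [div_pow _ (2 * r₁), ← k1]; field_simp)
      (by rw [← hs']; ring) hs0
      (by rw [e3, hx16eq]; field_simp; ring)
      (div_ne_zero (mul_ne_zero (by norm_num) hy) (mul_ne_zero hr₁0 hs0))
    have h4Q : 4 • mkPt (-4) 20 hQ = 0 := four_nsmul_eq_zero_of_x hQ (Or.inr rfl)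
    refine ⟨-mkPt (-4) 20 hQ, R, by rw [neg_nsmul, h4Q, neg_zero], ?_⟩
    rw [← hR]; abel
  · -- class (1, 5): translate by (36, 180)
    have hr₁' : x = r₁ ^ 2 := by rw [hr₁]; ring
    have hs' : 5 * (x + 9) = s ^ 2 := by rw [hs]; ring
    have hr₁0 : r₁ ≠ 0 := by
      rintro rfl
      exact hx0 (by rw [hr₁']; ring)
    have hs0 : s ≠ 0 := by
      rintro rfl
      exact hx9 (by linarith)
    have hQ : (180 : ℚ) ^ 2 = 36 * (36 + 9) * (36 - 16) := by norm_num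
    by_cases hx36 : x = 36
    · exact ⟨mkPt x y h, 0, four_nsmul_eq_zero_of_x h (Or.inl hx36), by rw [nsmul_zero, add_zero]⟩
    have s0 := secant_class (e := 0) h hQ hx36 (by norm_num)
    have k1 : (((y - 180) / (x - 36)) ^ 2 + 7 - x - 36) * (6 * r₁) ^ 2 =
        ((y - 180) / (x - 36) * (0 - x) + y) ^ 2 := by
      rw [mul_pow, ← hr₁']; linear_combination s0
    have e3 : (10 * y / (r₁ * s)) ^ 2 = 100 * y ^ 2 / (x * (5 * (x + 9))) := by
      rw [div_pow, mul_pow, mul_pow, ← hr₁', ← hs']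
      norm_num
    obtain ⟨R, hR⟩ := add_is_double h hQ hx36
      (c₁ := ((y - 180) / (x - 36) * (0 - x) + y) / (6 * r₁)) (c₂ := 3 * s)
      (c₃ := 10 * y / (r₁ * s))
      (by rw [div_pow _ (6 * r₁), ← k1]; field_simp)
      (by rw [mul_pow, ← hs']; ring) (mul_ne_zero (by norm_num) hs0)
      (by rw [e3, hx16eq]; field_simp; ring)
      (div_ne_zero (mul_ne_zero (by norm_num) hy) (mul_ne_zero hr₁0 hs0))
    have h4Q : 4 • mkPt 36 180 hQ = 0 := four_nsmul_eq_zero_of_x hQ (Or.inl rfl)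
    refine ⟨-mkPt 36 180 hQ, R, by rw [neg_nsmul, h4Q, neg_zero], ?_⟩
    rw [← hR]; abel

/-- Iterating the weak Mordell-Weil step pushes `4 P` arbitrarily deep at `2`. -/
lemma four_nsmul_deep (n : ℕ) : ∀ P : Pt, 4 • P = 0 ∨
    ∃ (x y : ℚ) (h : y ^ 2 = x * (x + 9) * (x - 16)), 4 • P = mkPt x y h ∧
      padicValRat 2 x < -(n : ℤ) := by
  induction n with
  | zero =>
    intro P
    rcases four_nsmul_cases P with h | ⟨x, y, h, hP, hv⟩
    · exact Or.inl h
    · exact Or.inr ⟨x, y, h, hP, by simpa using hv⟩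
  | succ n ih =>
    intro P
    obtain ⟨T, R, hT, hP⟩ := exists_torsion_add_double P
    have h4 : 4 • P = 2 • (4 • R) := by
      rw [hP, nsmul_add, hT, zero_add, smul_comm]
    rcases ih R with h0 | ⟨x, y, h, hR, hv⟩
    · left; rw [h4, h0, nsmul_zero]
    · right
      have hv0 : padicValRat 2 x < 0 := by
        have : (0 : ℤ) ≤ (n : ℤ) := Int.natCast_nonneg n
        omega
      obtain ⟨x', y', h', hd, hv'⟩ := InE1.two_nsmul h hv0
      refine ⟨x', y', h', by rw [h4, hR, hd], ?_⟩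
      rw [hv']
      push_cast
      omega

/-- Every rational point is killed by `4`. -/
theorem four_nsmul_eq_zero (P : Pt) : 4 • P = 0 := by
  rcases four_nsmul_deep 0 P with h | ⟨x₀, y₀, h₀, hP₀, -⟩
  · exact h
  rcases four_nsmul_deep (Int.toNat (-padicValRat 2 x₀)) P with h | ⟨x, y, h, hP, hv⟩
  · exact h
  exfalso
  have hxx : x₀ = x := (mkPt_inj (hP₀.symm.trans hP)).1
  subst hxx
  have := Int.self_le_toNat (-padicValRat 2 x₀)
  omega

/-- All rational points of `y^2 = x (x + 9) (x - 16)` (Cremona `15a1`). -/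
theorem rat_points_15a1 (x y : ℚ) (h : y ^ 2 = x * (x + 9) * (x - 16)) :
    x = 0 ∨ x = -9 ∨ x = 16 ∨ x = 36 ∨ x = -4 := by
  by_cases hy : y = 0
  · have h0 : x * (x + 9) * (x - 16) = 0 := by rw [← h, hy]; ring
    rcases mul_eq_zero.mp h0 with h1 | h1
    · rcases mul_eq_zero.mp h1 with h2 | h2
      · left; exact h2
      · right; left; linarith
    · right; right; left; linarith
  · right; right; right
    have h4 := four_nsmul_eq_zero (mkPt x y h)
    obtain ⟨y', h', hd⟩ := two_nsmul_mkPt h hy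
    rw [four_nsmul_eq, hd] at h4
    have hy' : y' = 0 := by
      by_contra hne
      obtain ⟨y'', h'', hd'⟩ := two_nsmul_mkPt h' hne
      rw [hd'] at h4
      exact mkPt_ne_zero _ h4
    have hpos : 0 < (x ^ 2 + 144) ^ 2 / (4 * y ^ 2) := by positivity
    have h0 : (x ^ 2 + 144) ^ 2 / (4 * y ^ 2) * ((x ^ 2 + 144) ^ 2 / (4 * y ^ 2) + 9) *
        ((x ^ 2 + 144) ^ 2 / (4 * y ^ 2) - 16) = 0 := by
      rw [← h', hy']; ring
    have h16 : (x ^ 2 + 144) ^ 2 / (4 * y ^ 2) = 16 := by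
      rcases mul_eq_zero.mp h0 with h1 | h1
      · rcases mul_eq_zero.mp h1 with h2 | h2
        · linarith
        · linarith
      · linarith
    have h5 : (x ^ 2 + 144) ^ 2 = 64 * y ^ 2 := by
      field_simp at h16
      linarith
    have h6 : (x ^ 2 - 32 * x - 144) ^ 2 = 0 := by
      rw [h] at h5
      linear_combination h5
    have h7 : (x - 36) * (x + 4) = 0 := by
      have := pow_eq_zero_iff two_ne_zero |>.mp h6
      linarith
    rcases mul_eq_zero.mp h7 with h8 | h8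
    · left; linarith
    · right; linarith

end Fermat.Agent.S51.H83
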