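import Mathlib

set_option autoImplicit false

namespace Fermat.Agent.S51.H63

/-- The plane model `Q(c,Y)=0` of `X₀(15)`: main identity producing a point on `15a1`. -/
theorem key_identity (c Y g M : ℚ) (hg : g = c ^ 2 + 2 * c + 5)
    (hM : M = 2 * Y ^ 3 + g * Y ^ 2 + 2 * c * g * Y + g ^ 2)
    (hQ : 3 * Y ^ 4 + 2 * g * Y ^ 3 + 6 * c * g * Y ^ 2 + 6 * g ^ 2 * Y + (2 * c + 5) * g ^ 2 = 0) :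
    g * (Y ^ 2 - g) * ((Y ^ 2 - g) ^ 2 * (Y ^ 2 - 5 * g) * (c - 10) - 10 * M ^ 2) ^ 2 =
      4 * M ^ 4 * Y ^ 2 * (9 * Y ^ 2 - 25 * g) := by
  subst hg hM
  linear_combination
    (-50 * c ^ 15 - 250 * c ^ 14 * Y - 725 * c ^ 14 - 400 * c ^ 13 * Y ^ 2 - 3000 * c ^ 13 * Y - 6000 * c ^ 13
      - 4065 * c ^ 12 * Y ^ 2 - 22500 * c ^ 12 * Y - 34250 * c ^ 12 + 732 * c ^ 11 * Y ^ 4 - 440 * c ^ 11 * Y ^ 3 - 28550 * c ^ 11 * Y ^ 2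
      - 115000 * c ^ 11 * Y - 148250 * c ^ 11 + 860 * c ^ 10 * Y ^ 5 + 4774 * c ^ 10 * Y ^ 4 - 5000 * c ^ 10 * Y ^ 3 - 134725 * c ^ 10 * Y ^ 2
      - 453750 * c ^ 10 * Y - 506475 * c ^ 10 + 320 * c ^ 9 * Y ^ 6 + 6568 * c ^ 9 * Y ^ 5 + 26512 * c ^ 9 * Y ^ 4 - 34600 * c ^ 9 * Y ^ 3
      - 508700 * c ^ 9 * Y ^ 2 - 1398000 * c ^ 9 * Y - 1397200 * c ^ 9 - 80 * c ^ 8 * Y ^ 7 + 4790 * c ^ 8 * Y ^ 6 + 36664 * c ^ 8 * Y ^ 5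
      + 83936 * c ^ 8 * Y ^ 4 - 162200 * c ^ 8 * Y ^ 3 - 1492750 * c ^ 8 * Y ^ 2 - 3491000 * c ^ 8 * Y - 3143500 * c ^ 8 - 90 * c ^ 7 * Y ^ 8
      + 1720 * c ^ 7 * Y ^ 7 + 25244 * c ^ 7 * Y ^ 6 + 127552 * c ^ 7 * Y ^ 5 + 235768 * c ^ 7 * Y ^ 4 - 577200 * c ^ 7 * Y ^ 3 - 3638580 * c ^ 7 * Y ^ 2
      - 6990000 * c ^ 7 * Y - 5763750 * c ^ 7 - 18 * c ^ 6 * Y ^ 9 - 305 * c ^ 6 * Y ^ 8 + 10200 * c ^ 6 * Y ^ 7 + 99714 * c ^ 6 * Y ^ 6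
      + 359816 * c ^ 6 * Y ^ 5 + 417348 * c ^ 6 * Y ^ 4 - 1584080 * c ^ 6 * Y ^ 3 - 7068050 * c ^ 6 * Y ^ 2 - 11343750 * c ^ 6 * Y - 8546875 * c ^ 6
      - 496 * c ^ 5 * Y ^ 9 + 2240 * c ^ 5 * Y ^ 8 + 48920 * c ^ 5 * Y ^ 7 + 246688 * c ^ 5 * Y ^ 6 + 727568 * c ^ 5 * Y ^ 5 + 667840 * c ^ 5 * Y ^ 4
      - 3445200 * c ^ 5 * Y ^ 3 - 11374000 * c ^ 5 * Y ^ 2 - 14375000 * c ^ 5 * Y - 10000000 * c ^ 5 - 117 * c ^ 4 * Y ^ 10 - 548 * c ^ 4 * Y ^ 9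
      + 12290 * c ^ 4 * Y ^ 8 + 116120 * c ^ 4 * Y ^ 7 + 505882 * c ^ 4 * Y ^ 6 + 1244800 * c ^ 4 * Y ^ 5 + 411000 * c ^ 4 * Y ^ 4 - 5870000 * c ^ 4 * Y ^ 3
      - 14003125 * c ^ 4 * Y ^ 2 - 14062500 * c ^ 4 * Y - 8906250 * c ^ 4 - 886 * c ^ 3 * Y ^ 10 - 696 * c ^ 3 * Y ^ 9 + 45570 * c ^ 3 * Y ^ 8
      + 227880 * c ^ 3 * Y ^ 7 + 670220 * c ^ 3 * Y ^ 6 + 1520000 * c ^ 3 * Y ^ 5 + 47500 * c ^ 3 * Y ^ 4 - 7775000 * c ^ 3 * Y ^ 3 - 13593750 * c ^ 3 * Y ^ 2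
      - 9375000 * c ^ 3 * Y - 5468750 * c ^ 3 - 256 * c ^ 2 * Y ^ 11 - 1109 * c ^ 2 * Y ^ 10 + 10670 * c ^ 2 * Y ^ 9 + 69775 * c ^ 2 * Y ^ 8
      + 206600 * c ^ 2 * Y ^ 7 + 827950 * c ^ 2 * Y ^ 6 + 1677500 * c ^ 2 * Y ^ 5 - 1456250 * c ^ 2 * Y ^ 4 - 7625000 * c ^ 2 * Y ^ 3 - 8015625 * c ^ 2 * Y ^ 2
      - 3906250 * c ^ 2 * Y - 1953125 * c ^ 2 - 512 * c * Y ^ 11 - 1700 * c * Y ^ 10 + 17400 * c * Y ^ 9 + 86000 * c * Y ^ 8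
      + 149000 * c * Y ^ 7 + 547000 * c * Y ^ 6 + 1125000 * c * Y ^ 5 - 1550000 * c * Y ^ 4 - 5125000 * c * Y ^ 3 - 2812500 * c * Y ^ 2
      - 192 * Y ^ 12 - 1280 * Y ^ 11 + 3900 * Y ^ 10 + 35000 * Y ^ 9 + 5000 * Y ^ 8 - 105000 * Y ^ 7
      + 520000 * Y ^ 6 + 825000 * Y ^ 5 - 2125000 * Y ^ 4 - 1875000 * Y ^ 3 + 1562500 * Y ^ 2) * hQ

theorem bezout_identity (c Y g M : ℚ) (hg : g = c ^ 2 + 2 * c + 5)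
    (hM : M = 2 * Y ^ 3 + g * Y ^ 2 + 2 * c * g * Y + g ^ 2)
    (hQ : 3 * Y ^ 4 + 2 * g * Y ^ 3 + 6 * c * g * Y ^ 2 + 6 * g ^ 2 * Y + (2 * c + 5) * g ^ 2 = 0)
    (hM0 : M = 0) : g ^ 3 * (c - 10) = 0 := by
  subst hg
  rw [hM] at hM0
  linear_combination
    ((1 / 8) * c ^ 5 + (1 / 8) * c ^ 4 * Y - (19 / 16) * c ^ 4 - (17 / 8) * c ^ 3 * Y - 5 * c ^ 3 - (9 / 16) * c ^ 2 * Y ^ 2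
      - (7 / 2) * c ^ 2 * Y - (169 / 8) * c ^ 2 - (9 / 8) * c * Y ^ 2 - (85 / 8) * c * Y - (245 / 8) * c - (9 / 8) * Y ^ 3
      - (45 / 16) * Y ^ 2 + (25 / 8) * Y - (675 / 16)) * hM0 +
    (-(1 / 16) * c ^ 4 + (3 / 4) * c ^ 3 + (1 / 4) * c ^ 2 * Y + (9 / 8) * c ^ 2 + (1 / 2) * c * Y + (15 / 4) * c
      + (3 / 4) * Y ^ 2 + (5 / 4) * Y - (25 / 16)) * hQ

end Fermat.Agent.S51.H63
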