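import Mathlib
import Fermat.Agent.S51.AlgCoreId_helper63

set_option autoImplicit false

namespace Fermat.Agent.S51.H63

/-- The statement about rational points of `15a1` consumed by the core. -/
def Pts15 : Prop :=
  ∀ x y : ℚ, y ^ 2 = x * (x + 9) * (x - 16) → x = 0 ∨ x = -9 ∨ x = 16 ∨ x = 36 ∨ x = -4

/-- Rational points of the plane model `Q(c,Y)=0` of `X₀(15)` away from the cusp `c = 10`. -/
theorem cY_cases (pts : Pts15) (c Y : ℚ)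
    (hQ : 3 * Y ^ 4 + 2 * (c ^ 2 + 2 * c + 5) * Y ^ 3 + 6 * c * (c ^ 2 + 2 * c + 5) * Y ^ 2
      + 6 * (c ^ 2 + 2 * c + 5) ^ 2 * Y + (2 * c + 5) * (c ^ 2 + 2 * c + 5) ^ 2 = 0)
    (hc : c ≠ 10) :
    c = -5 / 2 ∨ c = 55 / 8 ∨ c = 0 ∨ c = -30 := by
  obtain ⟨g, hg⟩ : ∃ g : ℚ, g = c ^ 2 + 2 * c + 5 := ⟨_, rfl⟩
  rw [← hg] at hQ
  have hgpos : 0 < g := by rw [hg]; nlinarith [sq_nonneg (c + 1)]
  have hg0 : g ≠ 0 := hgpos.ne'
  obtain ⟨M, hM⟩ : ∃ M : ℚ, M = 2 * Y ^ 3 + g * Y ^ 2 + 2 * c * g * Y + g ^ 2 := ⟨_, rfl⟩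
  have hM0 : M ≠ 0 := by
    intro h0
    have h := bezout_identity c Y g M hg hM hQ h0
    rcases mul_eq_zero.mp h with h | h
    · exact hg0 (pow_eq_zero_iff (by norm_num) |>.mp h)
    · exact hc (by linarith)
  have key := key_identity c Y g M hg hM hQ
  have hpt : (9 * ((Y ^ 2 - g) * ((Y ^ 2 - g) ^ 2 * (Y ^ 2 - 5 * g) * (c - 10) - 10 * M ^ 2)
      / (2 * g * M ^ 2))) ^ 2
      = (9 * (Y ^ 2 / g - 1)) * (9 * (Y ^ 2 / g - 1) + 9) * (9 * (Y ^ 2 / g - 1) - 16) := by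
    have e1 : (9 * ((Y ^ 2 - g) * ((Y ^ 2 - g) ^ 2 * (Y ^ 2 - 5 * g) * (c - 10) - 10 * M ^ 2)
        / (2 * g * M ^ 2))) ^ 2
        = 81 * ((Y ^ 2 - g) ^ 2 * ((Y ^ 2 - g) ^ 2 * (Y ^ 2 - 5 * g) * (c - 10) - 10 * M ^ 2) ^ 2)
          / (4 * g ^ 2 * M ^ 4) := by
      field_simp
      ring
    have e2 : (9 * (Y ^ 2 / g - 1)) * (9 * (Y ^ 2 / g - 1) + 9) * (9 * (Y ^ 2 / g - 1) - 16)
        = 81 * ((Y ^ 2 - g) * Y ^ 2 * (9 * Y ^ 2 - 25 * g)) / g ^ 3 := by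
      field_simp
      ring
    have d1 : (4 * g ^ 2 * M ^ 4) ≠ 0 :=
      mul_ne_zero (mul_ne_zero (by norm_num) (pow_ne_zero 2 hg0)) (pow_ne_zero 4 hM0)
    rw [e1, e2, div_eq_div_iff d1 (pow_ne_zero 3 hg0)]
    linear_combination (81 * g ^ 2 * (Y ^ 2 - g)) * key
  rcases pts _ _ hpt with h | h | h | h | h
  · -- kappa = 1 : cusp, impossible
    exfalso
    have hY2 : Y ^ 2 = g := by
      have : Y ^ 2 / g = 1 := by linarith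
      field_simp at this
      linarith
    have h1 : 8 * g ^ 2 * (Y + c + 1) = 0 := by
      linear_combination hQ - (6 * c * g + 3 * Y ^ 2 + 2 * Y * g + 3 * g) * hY2
    have h2 : Y + c + 1 = 0 := by
      rcases mul_eq_zero.mp h1 with h | h
      · exfalso; have : g ^ 2 = 0 := by linarith
        exact hg0 (pow_eq_zero_iff (by norm_num) |>.mp this)
      · exact h
    have h3 : Y = -(c + 1) := by linarith
    rw [h3, hg] at hY2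
    nlinarith
  · -- kappa = 0
    left
    have hY : Y = 0 := by
      have : Y ^ 2 / g = 0 := by linarith
      field_simp at this
      simpa using this
    rw [hY] at hQ
    have h1 : (2 * c + 5) * g ^ 2 = 0 := by linear_combination hQ
    rcases mul_eq_zero.mp h1 with h | h
    · linarith
    · exact absurd (pow_eq_zero_iff (by norm_num) |>.mp h) hg0
  · -- kappa = 25/9
    right; left
    have hY2 : 9 * Y ^ 2 = 25 * g := by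
      have : Y ^ 2 / g = 25 / 9 := by linarith
      field_simp at this
      linarith
    have h1 : g ^ 2 * (95 + 39 * Y + 63 * c) = 0 := by
      linear_combination (27 / 8) * hQ
        - (27 / 8) * ((2 / 3) * c * g + (1 / 3) * Y ^ 2 + (2 / 9) * Y * g + (25 / 27) * g)
          * hY2
    have h2 : 95 + 39 * Y + 63 * c = 0 := by
      rcases mul_eq_zero.mp h1 with h | h
      · exact absurd (pow_eq_zero_iff (by norm_num) |>.mp h) hg0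
      · exact h
    have h3 : Y = -(63 * c + 95) / 39 := by linarith
    rw [h3, hg] at hY2
    have h4 : (8 * c - 55) ^ 2 = 0 := by linear_combination (-169 / 4) * hY2
    have h5 := pow_eq_zero_iff (by norm_num) |>.mp h4
    linarith
  · -- kappa = 5
    right; right; left
    have hY2 : Y ^ 2 = 5 * g := by
      have : Y ^ 2 / g = 5 := by linarith
      field_simp at this
      linarith
    have h1 : 16 * g ^ 2 * (5 + Y + 2 * c) = 0 := by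
      linear_combination hQ - (6 * c * g + 3 * Y ^ 2 + 2 * Y * g + 15 * g) * hY2
    have h2 : 5 + Y + 2 * c = 0 := by
      rcases mul_eq_zero.mp h1 with h | h
      · exfalso; have : g ^ 2 = 0 := by linarith
        exact hg0 (pow_eq_zero_iff (by norm_num) |>.mp this)
      · exact h
    have h3 : Y = -(2 * c + 5) := by linarith
    rw [h3, hg] at hY2
    have h4 : c * (c - 10) = 0 := by linear_combination -hY2
    rcases mul_eq_zero.mp h4 with h | h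
    · exact h
    · exact absurd (by linarith) hc
  · -- kappa = 5/9
    right; right; right
    have hY2 : 9 * Y ^ 2 = 5 * g := by
      have : Y ^ 2 / g = 5 / 9 := by linarith
      field_simp at this
      linarith
    have h1 : g ^ 2 * (10 + 12 * Y + 9 * c) = 0 := by
      linear_combination (27 / 16) * hQ
        - (27 / 16) * ((2 / 3) * c * g + (1 / 3) * Y ^ 2 + (2 / 9) * Y * g + (5 / 27) * g)
          * hY2
    have h2 : 10 + 12 * Y + 9 * c = 0 := by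
      rcases mul_eq_zero.mp h1 with h | h
      · exact absurd (pow_eq_zero_iff (by norm_num) |>.mp h) hg0
      · exact h
    have h3 : Y = -(9 * c + 10) / 12 := by linarith
    rw [h3, hg] at hY2
    have h4 : (c + 30) * (c - 10) = 0 := by linear_combination (16) * hY2
    rcases mul_eq_zero.mp h4 with h | h
    · linarith
    · exact absurd (by linarith) hc

theorem prime_five_int : Prime (5 : ℤ) := by
  rw [Int.prime_iff_natAbs_prime]; norm_num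

/-- Endgame at the prime `5`: `c₄ ^ 3 * a = Δ * (5 ^ n * m)`, `n ∈ {1, 2}`, `5 ∤ a m`. -/
theorem endgame_aux (c₄ Δ a m : ℤ) (h5 : (5 : ℤ) ∣ Δ → ¬ (5 : ℤ) ∣ c₄)
    (ha : ¬ (5 : ℤ) ∣ a) (hm : ¬ (5 : ℤ) ∣ m)
    (h : c₄ ^ 3 * a = Δ * (5 * m) ∨ c₄ ^ 3 * a = Δ * (25 * m)) : False := by
  have h5c : (5 : ℤ) ∣ c₄ := by
    have h1 : (5 : ℤ) ∣ c₄ ^ 3 * a := by
      rcases h with h | h
      · exact ⟨Δ * m, by rw [h]; ring⟩
      · exact ⟨Δ * (5 * m), by rw [h]; ring⟩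
    rcases prime_five_int.dvd_or_dvd h1 with h2 | h2
    · exact prime_five_int.dvd_of_dvd_pow h2
    · exact absurd h2 ha
  obtain ⟨k, rfl⟩ := h5c
  have h5Δ : (5 : ℤ) ∣ Δ := by
    rcases h with h | h
    · have h1 : (5 : ℤ) ∣ Δ * m := ⟨5 * k ^ 3 * a, by linarith⟩
      rcases prime_five_int.dvd_or_dvd h1 with h2 | h2
      · exact h2
      · exact absurd h2 hm
    · have h1 : (5 : ℤ) ∣ Δ * m := ⟨k ^ 3 * a, by linarith⟩
      rcases prime_five_int.dvd_or_dvd h1 with h2 | h2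
      · exact h2
      · exact absurd h2 hm
  exact h5 h5Δ (dvd_mul_right 5 k)

theorem endgame (c₄ Δ : ℤ) (h5 : (5 : ℤ) ∣ Δ → ¬ (5 : ℤ) ∣ c₄) (c : ℚ)
    (hrel : (c₄ : ℚ) ^ 3 * (c - 10) = (Δ : ℚ) * (c ^ 2 - 10 * c + 5) ^ 3)
    (hc : c = -5 / 2 ∨ c = 55 / 8 ∨ c = 0 ∨ c = -30) : False := by
  rcases hc with rfl | rfl | rfl | rfl
  · have h1 : (c₄ : ℚ) ^ 3 * (-32) = (Δ : ℚ) * (5 * 24389) := by
      linear_combination (64 / 25) * hrel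
    have h2 : c₄ ^ 3 * (-32) = Δ * (5 * 24389) := by exact_mod_cast h1
    exact endgame_aux c₄ Δ (-32) 24389 h5 (by norm_num) (by norm_num) (Or.inl h2)
  · have h1 : (c₄ : ℚ) ^ 3 * 32768 = (Δ : ℚ) * (5 * 9393931) := by
      linear_combination (-262144 / 25) * hrel
    have h2 : c₄ ^ 3 * 32768 = Δ * (5 * 9393931) := by exact_mod_cast h1
    exact endgame_aux c₄ Δ 32768 9393931 h5 (by norm_num) (by norm_num) (Or.inl h2)
  · have h1 : (c₄ : ℚ) ^ 3 * (-2) = (Δ : ℚ) * (25 * 1) := by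
      linear_combination (1 / 5) * hrel
    have h2 : c₄ ^ 3 * (-2) = Δ * (25 * 1) := by exact_mod_cast h1
    exact endgame_aux c₄ Δ (-2) 1 h5 (by norm_num) (by norm_num) (Or.inr h2)
  · have h1 : (c₄ : ℚ) ^ 3 * (-8) = (Δ : ℚ) * (25 * 13997521) := by
      linear_combination (1 / 5) * hrel
    have h2 : c₄ ^ 3 * (-8) = Δ * (25 * 13997521) := by exact_mod_cast h1
    exact endgame_aux c₄ Δ (-8) 13997521 h5 (by norm_num) (by norm_num) (Or.inr h2)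

/-- Core, with the `5`-kernel centred at `0` (kernel polynomial `x ^ 2 - T`). -/
theorem core_centered (pts : Pts15) (B₂ B₄ T X₀ : ℚ) (hT : T ≠ 0)
    (hE1 : 20 * T ^ 2 + 4 * B₄ * T + B₄ ^ 2 = B₂ ^ 2 * T)
    (hE2 : 3 * X₀ ^ 4 + B₂ * X₀ ^ 3 + 3 * B₄ * X₀ ^ 2 + 3 * B₂ * T * X₀ + 5 * T ^ 2 + B₄ * T = 0)
    (c₄ Δ : ℤ) (hc₄ : (c₄ : ℚ) = B₂ ^ 2 - 24 * B₄)
    (hΔ : (Δ : ℚ) = 32 * T ^ 2 * (B₄ - 20 * T))
    (hΔ0 : Δ ≠ 0) (h5 : (5 : ℤ) ∣ Δ → ¬ (5 : ℤ) ∣ c₄) : False := by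
  obtain ⟨c, hc⟩ : ∃ c : ℚ, c = B₄ / (2 * T) := ⟨_, rfl⟩
  have hB4 : B₄ = 2 * c * T := by rw [hc]; field_simp
  obtain ⟨g, hg⟩ : ∃ g : ℚ, g = c ^ 2 + 2 * c + 5 := ⟨_, rfl⟩
  have hgpos : 0 < g := by rw [hg]; nlinarith [sq_nonneg (c + 1)]
  have hg0 : g ≠ 0 := hgpos.ne'
  have hB2 : B₂ ^ 2 = 4 * T * g := by
    have h1 : B₂ ^ 2 * T = (4 * T * g) * T := by rw [← hE1, hB4, hg]; ring
    exact mul_right_cancel₀ hT h1
  have hB20 : B₂ ≠ 0 := by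
    intro h0
    rw [h0] at hB2
    have : 4 * T * g = 0 := by linarith
    rcases mul_eq_zero.mp this with h | h
    · exact hT (by linarith)
    · exact hg0 h
  obtain ⟨Y, hY⟩ : ∃ Y : ℚ, Y = 2 * g * X₀ / B₂ := ⟨_, rfl⟩
  have hX : X₀ = B₂ * Y / (2 * g) := by rw [hY]; field_simp
  have hT' : T = B₂ ^ 2 / (4 * g) := by rw [hB2]; field_simp
  have hQ : 3 * Y ^ 4 + 2 * (c ^ 2 + 2 * c + 5) * Y ^ 3 + 6 * c * (c ^ 2 + 2 * c + 5) * Y ^ 2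
      + 6 * (c ^ 2 + 2 * c + 5) ^ 2 * Y + (2 * c + 5) * (c ^ 2 + 2 * c + 5) ^ 2 = 0 := by
    rw [← hg]
    have h1 : B₂ ^ 4 / (16 * g ^ 4) * (3 * Y ^ 4 + 2 * g * Y ^ 3 + 6 * c * g * Y ^ 2
        + 6 * g ^ 2 * Y + (2 * c + 5) * g ^ 2) = 0 := by
      rw [← hE2, hB4, hX, hT']
      field_simp
      ring
    rcases mul_eq_zero.mp h1 with h | h
    · exfalso
      have h2 : B₂ ^ 4 = 0 := by
        have h3 : (16 * g ^ 4) ≠ 0 := mul_ne_zero (by norm_num) (pow_ne_zero 4 hg0)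
        field_simp at h
        simpa using h
      exact hB20 (pow_eq_zero_iff (by norm_num) |>.mp h2)
    · exact h
  have hΔ' : (Δ : ℚ) = 64 * T ^ 3 * (c - 10) := by rw [hΔ, hB4]; ring
  have hc10 : c ≠ 10 := by
    intro h
    rw [h] at hΔ'
    have : (Δ : ℚ) = 0 := by rw [hΔ']; ring
    exact hΔ0 (by exact_mod_cast this)
  have hcases := cY_cases pts c Y hQ hc10
  have hc4' : (c₄ : ℚ) = 4 * T * (c ^ 2 - 10 * c + 5) := by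
    rw [hc₄, hB2, hB4, hg]; ring
  have hrel : (c₄ : ℚ) ^ 3 * (c - 10) = (Δ : ℚ) * (c ^ 2 - 10 * c + 5) ^ 3 := by
    rw [hc4', hΔ']; ring
  exact endgame c₄ Δ h5 c hrel hcases

/-- Core in terms of the centre `r` of the `5`-kernel and `T = ((x₁ - x₂) / 2) ^ 2`. -/
theorem core_rT (pts : Pts15) (b₂ b₄ b₆ b₈ : ℚ) (hb₈ : 4 * b₈ = b₂ * b₆ - b₄ ^ 2)
    (c₄ Δ : ℤ) (hc₄ : (c₄ : ℚ) = b₂ ^ 2 - 24 * b₄)
    (hΔ : (Δ : ℚ) = -b₂ ^ 2 * b₈ - 8 * b₄ ^ 3 - 27 * b₆ ^ 2 + 9 * b₂ * b₄ * b₆)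
    (hΔ0 : Δ ≠ 0) (h5 : (5 : ℤ) ∣ Δ → ¬ (5 : ℤ) ∣ c₄)
    (x₀ : ℚ) (h3 : 3 * x₀ ^ 4 + b₂ * x₀ ^ 3 + 3 * b₄ * x₀ ^ 2 + 3 * b₆ * x₀ + b₈ = 0)
    (r T : ℚ) (hT : T ≠ 0)
    (h5a : b₆ + 2 * r * b₄ + r ^ 2 * b₂ + 4 * r ^ 3 = (b₂ + 12 * r) * T)
    (h5b : b₈ + 3 * r * b₆ + 3 * r ^ 2 * b₄ + r ^ 3 * b₂ + 3 * r ^ 4
      = 5 * T ^ 2 + (b₄ + r * b₂ + 6 * r ^ 2) * T) : False := by
  obtain rfl : b₆ = (b₂ + 12 * r) * T - 2 * r * b₄ - r ^ 2 * b₂ - 4 * r ^ 3 := by linarith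
  obtain rfl : b₈ = 5 * T ^ 2 + (b₄ + r * b₂ + 6 * r ^ 2) * T
      - 3 * r * ((b₂ + 12 * r) * T - 2 * r * b₄ - r ^ 2 * b₂ - 4 * r ^ 3)
      - 3 * r ^ 2 * b₄ - r ^ 3 * b₂ - 3 * r ^ 4 := by linarith
  refine core_centered pts (b₂ + 12 * r) (b₄ + r * b₂ + 6 * r ^ 2) T (x₀ - r) hT ?_ ?_ c₄ Δ ?_ ?_
    hΔ0 h5
  · linear_combination hb₈
  · linear_combination h3
  · rw [hc₄]; ring
  · rw [hΔ]
    linear_combination (-2 * b₂ * r - 8 * b₄ - 12 * r ^ 2 + 32 * T) * hb₈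

/-- **Algebraic core of S51.**  `b`'s: the `b`-invariants of the curve over `ℚ`; `x₀`: a rational
root of the `3`-division polynomial; `x₁ ≠ x₂`: the `x`-coordinates of a Galois-stable cyclic
subgroup of order `5` (so `x(2Q) = x₂`, `x(2·2Q) = x₁`), with rational sum and product. -/
theorem core (pts : Pts15) (b₂ b₄ b₆ b₈ : ℚ) (hb₈ : 4 * b₈ = b₂ * b₆ - b₄ ^ 2)
    (c₄ Δ : ℤ) (hc₄ : (c₄ : ℚ) = b₂ ^ 2 - 24 * b₄)
    (hΔ : (Δ : ℚ) = -b₂ ^ 2 * b₈ - 8 * b₄ ^ 3 - 27 * b₆ ^ 2 + 9 * b₂ * b₄ * b₆)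
    (hΔ0 : Δ ≠ 0) (h5 : (5 : ℤ) ∣ Δ → ¬ (5 : ℤ) ∣ c₄)
    (x₀ : ℚ) (h3 : 3 * x₀ ^ 4 + b₂ * x₀ ^ 3 + 3 * b₄ * x₀ ^ 2 + 3 * b₆ * x₀ + b₈ = 0)
    {K : Type*} [Field K] [CharZero K] (x₁ x₂ : K) (hne : x₁ ≠ x₂) (u v : ℚ)
    (hu : x₁ + x₂ = (u : K)) (hv : x₁ * x₂ = (v : K))
    (h12 : x₁ ^ 4 - (b₄ : K) * x₁ ^ 2 - 2 * (b₆ : K) * x₁ - (b₈ : K)
      = x₂ * (4 * x₁ ^ 3 + (b₂ : K) * x₁ ^ 2 + 2 * (b₄ : K) * x₁ + (b₆ : K)))
    (h21 : x₂ ^ 4 - (b₄ : K) * x₂ ^ 2 - 2 * (b₆ : K) * x₂ - (b₈ : K)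
      = x₁ * (4 * x₂ ^ 3 + (b₂ : K) * x₂ ^ 2 + 2 * (b₄ : K) * x₂ + (b₆ : K))) : False := by
  obtain rfl : x₂ = (u : K) - x₁ := by linear_combination hu
  have hZ : x₁ ^ 2 - (u : K) * x₁ + (v : K) = 0 := by linear_combination -hv
  have hne' : 2 * x₁ - (u : K) ≠ 0 := by
    intro h
    exact hne (by linear_combination h)
  have hTK : (((u ^ 2 - 4 * v) / 4 : ℚ) : K) ≠ 0 := by
    have h1 : (((u ^ 2 - 4 * v) / 4 : ℚ) : K) = ((2 * x₁ - (u : K)) / 2) ^ 2 := by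
      push_cast
      linear_combination (-1 : K) * hZ
    rw [h1]
    exact pow_ne_zero 2 (div_ne_zero hne' (by norm_num))
  have hT : (u ^ 2 - 4 * v) / 4 ≠ 0 := by
    intro h
    apply hTK
    rw [h]
    simp
  have h5bK : ((b₈ + 3 * (u / 2) * b₆ + 3 * (u / 2) ^ 2 * b₄ + (u / 2) ^ 3 * b₂ + 3 * (u / 2) ^ 4 : ℚ) : K)
      = ((5 * ((u ^ 2 - 4 * v) / 4) ^ 2 + (b₄ + (u / 2) * b₂ + 6 * (u / 2) ^ 2) * ((u ^ 2 - 4 * v) / 4) : ℚ) : K) := by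
    push_cast
    linear_combination (-1 / 2 : K) * h12 + (-1 / 2 : K) * h21
      + (1 / 2 : K) * (10 * x₁ ^ 2 - 10 * x₁ * (u : K) + 8 * (u : K) ^ 2 + (u : K) * (b₂ : K)
          - 10 * (v : K) + 2 * (b₄ : K)) * hZ
  have h5aK' : (2 * x₁ - (u : K)) * (((b₆ + 2 * (u / 2) * b₄ + (u / 2) ^ 2 * b₂ + 4 * (u / 2) ^ 3 : ℚ) : K)
      - (((b₂ + 12 * (u / 2)) * ((u ^ 2 - 4 * v) / 4) : ℚ) : K)) = 0 := by
    push_cast
    linear_combination (-1 : K) * h12 + (1 : K) * h21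
      + (12 * x₁ * (u : K) + 2 * x₁ * (b₂ : K) - 6 * (u : K) ^ 2 - (u : K) * (b₂ : K)) * hZ
  have h5aK : ((b₆ + 2 * (u / 2) * b₄ + (u / 2) ^ 2 * b₂ + 4 * (u / 2) ^ 3 : ℚ) : K)
      = (((b₂ + 12 * (u / 2)) * ((u ^ 2 - 4 * v) / 4) : ℚ) : K) := by
    rcases mul_eq_zero.mp h5aK' with h | h
    · exact absurd h hne'
    · exact sub_eq_zero.mp h
  exact core_rT pts b₂ b₄ b₆ b₈ hb₈ c₄ Δ hc₄ hΔ hΔ0 h5 x₀ h3 (u / 2) ((u ^ 2 - 4 * v) / 4) hT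
    (by exact_mod_cast h5aK) (by exact_mod_cast h5bK)

end Fermat.Agent.S51.H63
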