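import Mathlib

set_option autoImplicit false

namespace Fermat.Agent.S51.H80

/-- In a small vector space over `ZMod p`, a proper nonzero subspace is a line. -/
lemma exists_generator_of_proper {p : ℕ} [Fact p.Prime] {M : Type*} [AddCommGroup M]
    [Module (ZMod p) M] [Finite M] (hcard : Nat.card M < p ^ 3) (N : Submodule (ZMod p) M)
    (h0 : N ≠ ⊥) (h1 : N ≠ ⊤) :
    ∃ v ∈ N, v ≠ 0 ∧ ∀ w ∈ N, ∃ k : ℕ, w = k • v := by
  classical
  have hp : 1 < p := (Fact.out : p.Prime).one_lt
  haveI : Fintype M := Fintype.ofFinite M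
  have hc : Nat.card M = p ^ Module.finrank (ZMod p) M := by
    rw [Nat.card_eq_fintype_card, Module.card_eq_pow_finrank (K := ZMod p) (V := M), ZMod.card]
  have hfr : Module.finrank (ZMod p) M < 3 := by
    rw [hc] at hcard
    exact (Nat.pow_lt_pow_iff_right hp).mp hcard
  have hN1 : Module.finrank (ZMod p) N < Module.finrank (ZMod p) M := Submodule.finrank_lt h1
  have hN0 : 1 ≤ Module.finrank (ZMod p) N := Submodule.one_le_finrank_iff.mpr h0
  have hN : Module.finrank (ZMod p) N = 1 := by omega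
  obtain ⟨v, hv0, hv⟩ := finrank_eq_one_iff'.mp hN
  refine ⟨v.1, v.2, fun h => hv0 (Subtype.ext h), fun w hw => ?_⟩
  obtain ⟨c, hc⟩ := hv ⟨w, hw⟩
  refine ⟨c.val, ?_⟩
  have h2 : (c • v : N).1 = w := by rw [hc]
  rw [← h2, Submodule.coe_smul]
  conv_lhs => rw [← ZMod.natCast_zmod_val c]
  exact Nat.cast_smul_eq_nsmul (ZMod p) c.val v.1

end Fermat.Agent.S51.H80
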