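import Mathlib

set_option autoImplicit false

open WeierstrassCurve

namespace Fermat.Agent.S51.H80

variable {K : Type*} [Field K] (E : WeierstrassCurve.Affine K)

/-- numerator of the duplication map on `x`-coordinates -/
def dupN (x : K) : K := x ^ 4 - E.b₄ * x ^ 2 - 2 * E.b₆ * x - E.b₈

/-- denominator of the duplication map on `x`-coordinates -/
def dupD (x : K) : K := 4 * x ^ 3 + E.b₂ * x ^ 2 + 2 * E.b₄ * x + E.b₆

def psi3 (x : K) : K := 3 * x ^ 4 + E.b₂ * x ^ 3 + 3 * E.b₄ * x ^ 2 + 3 * E.b₆ * x + E.b₈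

def pre4 (x : K) : K := 2 * x ^ 6 + E.b₂ * x ^ 5 + 5 * E.b₄ * x ^ 4 + 10 * E.b₆ * x ^ 3
  + 10 * E.b₈ * x ^ 2 + (E.b₂ * E.b₈ - E.b₄ * E.b₆) * x + (E.b₄ * E.b₈ - E.b₆ ^ 2)

def psi5 (x : K) : K := pre4 E x * dupD E x ^ 2 - psi3 E x ^ 3

/-- `η = 2y + a₁x + a₃` -/
def eta (x y : K) : K := 2 * y + E.a₁ * x + E.a₃

/-- numerator of the tangent slope -/
def tanN (x y : K) : K := 3 * x ^ 2 + 2 * E.a₂ * x + E.a₄ - E.a₁ * y

lemma eta_sq {x y : K} (h : E.Equation x y) : eta E x y ^ 2 = dupD E x := by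
  rw [Affine.equation_iff] at h
  simp only [eta, dupD, WeierstrassCurve.b₂, WeierstrassCurve.b₄, WeierstrassCurve.b₆]
  linear_combination 4 * h

lemma dup_identity {x y : K} (h : E.Equation x y) :
    tanN E x y ^ 2 + E.a₁ * tanN E x y * eta E x y - (E.a₂ + 2 * x) * eta E x y ^ 2
      = dupN E x := by
  rw [Affine.equation_iff] at h
  simp only [tanN, eta, dupN, WeierstrassCurve.b₄, WeierstrassCurve.b₆, WeierstrassCurve.b₈]
  linear_combination (-(8 * x) - 4 * E.a₂ - E.a₁ ^ 2) * h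

lemma psi3_eq (x : K) : psi3 E x = x * dupD E x - dupN E x := by
  simp only [psi3, dupD, dupN]; ring

lemma I1 (x : K) : 4 * dupN E x ^ 3 + E.b₂ * dupN E x ^ 2 * dupD E x
    + 2 * E.b₄ * dupN E x * dupD E x ^ 2 + E.b₆ * dupD E x ^ 3 = pre4 E x ^ 2 := by
  simp only [dupN, dupD, pre4, WeierstrassCurve.b₂, WeierstrassCurve.b₄, WeierstrassCurve.b₆,
    WeierstrassCurve.b₈]
  ring

lemma I2 (x : K) : dupN E x ^ 4 - E.b₄ * dupN E x ^ 2 * dupD E x ^ 2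
    - 2 * E.b₆ * dupN E x * dupD E x ^ 3 - E.b₈ * dupD E x ^ 4
    - x * dupD E x * pre4 E x ^ 2 = - psi3 E x * psi5 E x := by
  simp only [dupN, dupD, pre4, psi3, psi5, WeierstrassCurve.b₂, WeierstrassCurve.b₄,
    WeierstrassCurve.b₆, WeierstrassCurve.b₈]
  ring

/-- If `x₂ = N(x)/D(x)` then `D(x₂) D(x)^3 = pre4(x)^2`. -/
lemma dupD_dup {x x₂ : K} (h : x₂ * dupD E x = dupN E x) :
    dupD E x₂ * dupD E x ^ 3 = pre4 E x ^ 2 := by
  rw [← I1]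
  have : dupD E x₂ * dupD E x ^ 3 = 4 * (x₂ * dupD E x) ^ 3 + E.b₂ * (x₂ * dupD E x) ^ 2 * dupD E x
    + 2 * E.b₄ * (x₂ * dupD E x) * dupD E x ^ 2 + E.b₆ * dupD E x ^ 3 := by
    simp only [dupD]; ring
  rw [this, h]

/-- If `x₂ = N(x)/D(x)` then `N(x₂) D(x)^4` is the homogenised numerator. -/
lemma dupN_dup {x x₂ : K} (h : x₂ * dupD E x = dupN E x) :
    dupN E x₂ * dupD E x ^ 4 = dupN E x ^ 4 - E.b₄ * dupN E x ^ 2 * dupD E x ^ 2
    - 2 * E.b₆ * dupN E x * dupD E x ^ 3 - E.b₈ * dupD E x ^ 4 := by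
  have : dupN E x₂ * dupD E x ^ 4 = (x₂ * dupD E x) ^ 4 - E.b₄ * (x₂ * dupD E x) ^ 2 * dupD E x ^ 2
    - 2 * E.b₆ * (x₂ * dupD E x) * dupD E x ^ 3 - E.b₈ * dupD E x ^ 4 := by
    simp only [dupN]; ring
  rw [this, h]

end Fermat.Agent.S51.H80
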