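import Mathlib
import Fermat.Agent.S51.DupId

set_option autoImplicit false
set_option linter.unusedSectionVars false

open WeierstrassCurve

namespace Fermat.Agent.S51.H80

variable {K : Type*} [Field K] (E : WeierstrassCurve.Affine K)

section Points

variable [DecidableEq K] {E}

open WeierstrassCurve.Affine

lemma eta_eq_zero_iff {x y : K} : eta E x y = 0 ↔ y = E.negY x y := by
  simp only [eta, Affine.negY]
  constructor
  · intro h; linear_combination h
  · intro h; linear_combination h

lemma add_self_eq_zero_of_eta {x y : K} (h : E.Nonsingular x y) (he : eta E x y = 0) :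
    Point.some x y h + Point.some x y h = 0 :=
  Point.add_self_of_Y_eq (eta_eq_zero_iff.mp he)

lemma add_self_of_eta_ne {x y : K} (h : E.Nonsingular x y) (he : eta E x y ≠ 0) :
    ∃ (x₂ y₂ : K) (h₂ : E.Nonsingular x₂ y₂), Point.some x y h + Point.some x y h = Point.some x₂ y₂ h₂ ∧
      x₂ * dupD E x = dupN E x := by
  have hy : y ≠ E.negY x y := fun hy => he (eta_eq_zero_iff.mpr hy)
  refine ⟨_, _, _, Point.add_self_of_Y_ne hy, ?_⟩
  rw [Affine.slope_of_Y_ne rfl hy]
  have hden : y - E.negY x y = eta E x y := by simp only [eta, Affine.negY]; ring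
  rw [hden, ← eta_sq E h.1, ← dup_identity E h.1]
  simp only [Affine.addX]
  have hnum : 3 * x ^ 2 + 2 * E.a₂ * x + E.a₄ - E.a₁ * y = tanN E x y := rfl
  rw [hnum]
  field_simp
  ring

/-- A nonsingular point with `η = 0` has `N(x) ≠ 0`. -/
lemma dupN_ne_zero_of_eta {x y : K} (h : E.Nonsingular x y) (he : eta E x y = 0) :
    dupN E x ≠ 0 := by
  have h1 := dup_identity E h.1
  rw [he] at h1
  have h2 : tanN E x y ≠ 0 := by
    have := (Affine.nonsingular_iff' x y).mp h
    rcases this.2 with h3 | h3
    · intro h4; apply h3; simp only [tanN] at h4; linear_combination -h4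
    · exact absurd he (by simpa only [eta] using h3)
  rw [← h1]
  simpa using h2

lemma eta_ne_zero_of_psi3 {x y : K} (h : E.Nonsingular x y) (h3 : psi3 E x = 0) :
    eta E x y ≠ 0 := by
  intro he
  apply dupN_ne_zero_of_eta h he
  have hD : dupD E x = 0 := by rw [← eta_sq E h.1, he]; ring
  have := psi3_eq E x
  rw [h3, hD] at this
  linear_combination this

end Points

end Fermat.Agent.S51.H80
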