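import Mathlib
import Fermat.Agent.S51.Dup

set_option autoImplicit false
set_option linter.unusedSectionVars false

open WeierstrassCurve WeierstrassCurve.Affine

namespace Fermat.Agent.S51.H80

variable {K : Type*} [Field K] [DecidableEq K] {E : WeierstrassCurve.Affine K}

/-- `3`-torsion points have `psi3 = 0`. -/
lemma psi3_eq_zero_of_three_nsmul {x y : K} (h : E.Nonsingular x y)
    (h3 : (3 : ℕ) • Point.some x y h = 0) : psi3 E x = 0 := by
  have h3' : (Point.some x y h + Point.some x y h) + Point.some x y h = 0 := by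
    rw [← h3]; abel
  by_cases he : eta E x y = 0
  · rw [add_self_eq_zero_of_eta h he, zero_add] at h3'
    exact absurd h3' (Point.some_ne_zero h)
  · obtain ⟨x₂, y₂, h₂, hadd, hx⟩ := add_self_of_eta_ne h he
    rw [hadd] at h3'
    have h4 : Point.some x₂ y₂ h₂ = -Point.some x y h := eq_neg_of_add_eq_zero_left h3'
    rw [Point.neg_some] at h4
    have hxx : x₂ = x := (Point.some.inj h4).1
    rw [psi3_eq, ← hx, hxx]; ring

/-- Conversely a nonsingular point whose `x` is a root of `psi3` is `3`-torsion. -/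
lemma three_nsmul_of_psi3 {x y : K} (h : E.Nonsingular x y) (h3 : psi3 E x = 0) :
    (3 : ℕ) • Point.some x y h = 0 := by
  have he := eta_ne_zero_of_psi3 h h3
  obtain ⟨x₂, y₂, h₂, hadd, hx⟩ := add_self_of_eta_ne h he
  have hD : dupD E x ≠ 0 := by rw [← eta_sq E h.1]; exact pow_ne_zero 2 he
  have hxx : x₂ = x := by
    have h5 := psi3_eq E x
    rw [h3] at h5
    have h6 : x₂ * dupD E x = x * dupD E x := by rw [hx]; linear_combination h5
    exact mul_right_cancel₀ hD h6
  have h7 : (3 : ℕ) • Point.some x y h = Point.some x₂ y₂ h₂ + Point.some x y h := by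
    rw [← hadd]; abel
  rw [h7]
  rcases Point.X_eq_iff.mp hxx with h8 | h8
  · exfalso
    rw [h8] at hadd
    have : Point.some x y h = 0 := by
      have := add_left_cancel (a := Point.some x y h) (b := Point.some x y h) (c := 0)
        (by rw [add_zero]; exact hadd)
      exact this
    exact Point.some_ne_zero h this
  · rw [h8]; exact neg_add_cancel _

/-- `5`-torsion points have `psi5 = 0` and `psi3 ≠ 0`. -/
lemma psi5_eq_zero_of_five_nsmul {x y : K} (h : E.Nonsingular x y)
    (h5 : (5 : ℕ) • Point.some x y h = 0) : psi5 E x = 0 ∧ psi3 E x ≠ 0 := by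
  set P := Point.some x y h with hP
  have hP0 : P ≠ 0 := Point.some_ne_zero h
  have h5' : ((P + P) + (P + P)) + P = 0 := by rw [← h5]; abel
  have hpsi3 : psi3 E x ≠ 0 := by
    intro h3
    have h3' := three_nsmul_of_psi3 h h3
    apply hP0
    have : P = (2 : ℕ) • ((3 : ℕ) • P) - (5 : ℕ) • P := by abel
    rw [this, h3', h5]; simp
  refine ⟨?_, hpsi3⟩
  have he : eta E x y ≠ 0 := by
    intro he
    have h2 := add_self_eq_zero_of_eta h he
    rw [← hP] at h2
    rw [h2, add_zero, zero_add] at h5'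
    exact hP0 h5'
  obtain ⟨x₂, y₂, h₂, hadd, hx⟩ := add_self_of_eta_ne h he
  rw [← hP] at hadd
  rw [hadd] at h5'
  have he2 : eta E x₂ y₂ ≠ 0 := by
    intro he2
    rw [add_self_eq_zero_of_eta h₂ he2, zero_add] at h5'
    exact hP0 h5'
  obtain ⟨x₄, y₄, h₄, hadd4, hx4⟩ := add_self_of_eta_ne h₂ he2
  rw [hadd4] at h5'
  have h4 : Point.some x₄ y₄ h₄ = -P := eq_neg_of_add_eq_zero_left h5'
  rw [hP, Point.neg_some] at h4
  have hxx : x₄ = x := (Point.some.inj h4).1
  rw [hxx] at hx4
  -- x * D(x₂) = N(x₂)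
  have e1 := dupD_dup E hx
  have e2 := dupN_dup E hx
  have e3 := I2 E x
  have key : psi3 E x * psi5 E x = 0 := by
    have : dupN E x₂ * dupD E x ^ 4 = x * dupD E x * (dupD E x₂ * dupD E x ^ 3) := by
      rw [← hx4]; ring
    rw [e1] at this
    rw [e2] at this
    linear_combination e3 - this
  rcases mul_eq_zero.mp key with h | h
  · exact absurd h hpsi3
  · exact h

/-- Conversely a nonsingular point whose `x` is a root of `psi5` is `5`-torsion. -/
lemma five_nsmul_of_psi5 {x y : K} (h : E.Nonsingular x y) (h5 : psi5 E x = 0) :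
    (5 : ℕ) • Point.some x y h = 0 := by
  set P := Point.some x y h with hP
  have hP0 : P ≠ 0 := Point.some_ne_zero h
  have hdef : psi5 E x = pre4 E x * dupD E x ^ 2 - psi3 E x ^ 3 := rfl
  -- (i) psi3 ≠ 0
  have hpsi3 : psi3 E x ≠ 0 := by
    intro h3
    have he := eta_ne_zero_of_psi3 h h3
    have hD : dupD E x ≠ 0 := by rw [← eta_sq E h.1]; exact pow_ne_zero 2 he
    have hpre : pre4 E x = 0 := by
      rw [h5, h3] at hdef
      have : pre4 E x * dupD E x ^ 2 = 0 := by linear_combination -hdef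
      rcases mul_eq_zero.mp this with h | h
      · exact h
      · exact absurd (pow_eq_zero_iff (two_ne_zero)|>.mp h) hD
    obtain ⟨x₂, y₂, h₂, hadd, hx⟩ := add_self_of_eta_ne h he
    have hxx : x₂ = x := by
      have h5' := psi3_eq E x
      rw [h3] at h5'
      have h6 : x₂ * dupD E x = x * dupD E x := by rw [hx]; linear_combination h5'
      exact mul_right_cancel₀ hD h6
    have e1 := dupD_dup E hx
    rw [hpre, hxx] at e1
    have : dupD E x * dupD E x ^ 3 ≠ 0 := mul_ne_zero hD (pow_ne_zero 3 hD)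
    exact this (by rw [e1]; ring)
  have hD : dupD E x ≠ 0 := by
    intro hD
    rw [h5, hD] at hdef
    have : psi3 E x ^ 3 = 0 := by linear_combination hdef
    exact hpsi3 (pow_eq_zero_iff (three_ne_zero) |>.mp this)
  have hpre : pre4 E x ≠ 0 := by
    intro hpre
    rw [h5, hpre] at hdef
    have : psi3 E x ^ 3 = 0 := by linear_combination hdef
    exact hpsi3 (pow_eq_zero_iff (three_ne_zero) |>.mp this)
  have he : eta E x y ≠ 0 := by
    intro he; apply hD; rw [← eta_sq E h.1, he]; ring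
  obtain ⟨x₂, y₂, h₂, hadd, hx⟩ := add_self_of_eta_ne h he
  have e1 := dupD_dup E hx
  have e2 := dupN_dup E hx
  have hD2 : dupD E x₂ ≠ 0 := by
    intro hD2
    rw [hD2, zero_mul] at e1
    exact hpre (pow_eq_zero_iff (two_ne_zero) |>.mp e1.symm)
  have he2 : eta E x₂ y₂ ≠ 0 := by
    intro he2; apply hD2; rw [← eta_sq E h₂.1, he2]; ring
  obtain ⟨x₄, y₄, h₄, hadd4, hx4⟩ := add_self_of_eta_ne h₂ he2
  have e3 := I2 E x
  rw [h5, mul_zero] at e3
  have hxx : x₄ = x := by
    have h6 : x₄ * (dupD E x₂ * dupD E x ^ 4) = x * (dupD E x₂ * dupD E x ^ 4) := by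
      have : x₄ * (dupD E x₂ * dupD E x ^ 4) = dupN E x₂ * dupD E x ^ 4 := by
        rw [← hx4]; ring
      rw [this, e2]
      have : x * (dupD E x₂ * dupD E x ^ 4) = x * dupD E x * (dupD E x₂ * dupD E x ^ 3) := by ring
      rw [this, e1]
      linear_combination e3
    exact mul_right_cancel₀ (mul_ne_zero hD2 (pow_ne_zero 4 hD)) h6
  have h7 : (5 : ℕ) • P = Point.some x₄ y₄ h₄ + P := by
    rw [← hadd4, ← hadd, hP]; abel
  rw [h7]
  rcases Point.X_eq_iff.mp hxx with h8 | h8
  · exfalso
    -- 4P = P, so 3P = 0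
    have h9 : (3 : ℕ) • P = 0 := by
      have : (3 : ℕ) • P = Point.some x₄ y₄ h₄ - P := by
        rw [← hadd4, ← hadd, hP]; abel
      rw [this, h8, hP]; exact sub_self _
    exact hpsi3 (psi3_eq_zero_of_three_nsmul h h9)
  · rw [h8, hP]; exact neg_add_cancel _

end Fermat.Agent.S51.H80
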