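import Mathlib
import Fermat.Agent.S51.Tors

set_option autoImplicit false
set_option linter.unusedSectionVars false

open WeierstrassCurve WeierstrassCurve.Affine Polynomial

namespace Fermat.Agent.S51.H80

variable {K : Type*} [Field K] [DecidableEq K] (E : WeierstrassCurve.Affine K)

/-- the polynomial in `y` cutting out the points with given `x` -/
noncomputable def quadY (x : K) : K[X] :=
  X ^ 2 + C (E.a₁ * x + E.a₃) * X - C (x ^ 3 + E.a₂ * x ^ 2 + E.a₄ * x + E.a₆)

lemma quadY_eval (x y : K) : (quadY E x).eval y = 0 ↔ E.Equation x y := by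
  rw [Affine.equation_iff']
  simp only [quadY, eval_sub, eval_add, eval_pow, eval_X, eval_mul, eval_C]
  constructor <;> intro h <;> linear_combination h

lemma quadY_natDegree (x : K) : (quadY E x).natDegree = 2 := by
  unfold quadY
  compute_degree!

lemma quadY_ne_zero (x : K) : quadY E x ≠ 0 := by
  intro h
  have := quadY_natDegree E x
  rw [h] at this
  simp at this

lemma quadY_roots_card (x : K) : (quadY E x).roots.toFinset.card ≤ 2 := by
  calc (quadY E x).roots.toFinset.card ≤ Multiset.card (quadY E x).roots := Multiset.toFinset_card_le _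
    _ ≤ (quadY E x).natDegree := Polynomial.card_roots' _
    _ = 2 := quadY_natDegree E x

lemma eval_Ψ₃ (x : K) : (WeierstrassCurve.Ψ₃ E).eval x = psi3 E x := by
  simp only [WeierstrassCurve.Ψ₃, psi3]
  simp

lemma eval_Ψ₂Sq (x : K) : (WeierstrassCurve.Ψ₂Sq E).eval x = dupD E x := by
  simp only [WeierstrassCurve.Ψ₂Sq, dupD]
  simp

lemma eval_preΨ₄ (x : K) : (WeierstrassCurve.preΨ₄ E).eval x = pre4 E x := by
  simp only [WeierstrassCurve.preΨ₄, pre4]
  simp

lemma preΨ'_five : WeierstrassCurve.preΨ' E 5 =
    WeierstrassCurve.preΨ₄ E * WeierstrassCurve.Ψ₂Sq E ^ 2 - WeierstrassCurve.Ψ₃ E ^ 3 := by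
  have := WeierstrassCurve.preΨ'_odd E 0
  simpa using this

lemma eval_preΨ'_five (x : K) : (WeierstrassCurve.preΨ' E 5).eval x = psi5 E x := by
  rw [preΨ'_five]
  simp only [eval_sub, eval_mul, eval_pow, eval_Ψ₃, eval_Ψ₂Sq, eval_preΨ₄, psi5]

variable {E}

/-- coordinates of a point -/
def toPair : E.Point → Option (K × K)
  | .zero => none
  | .some x y _ => some (x, y)

lemma toPair_injective : Function.Injective (toPair (E := E)) := by
  rintro (_ | ⟨x₁, y₁, h₁⟩) (_ | ⟨x₂, y₂, h₂⟩) h <;>
    simp only [toPair, Option.some.injEq, Prod.mk.injEq, reduceCtorEq] at h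
  · rfl
  · obtain ⟨rfl, rfl⟩ := h; rfl

/-- the finite set of pairs `(x,y)` on the curve with `x` a root of `p` -/
noncomputable def pairSet (E : WeierstrassCurve.Affine K) (p : K[X]) : Finset (K × K) :=
  p.roots.toFinset.biUnion fun x => (quadY E x).roots.toFinset.image fun y => (x, y)

lemma pairSet_card (p : K[X]) : (pairSet E p).card ≤ p.natDegree * 2 := by
  unfold pairSet
  calc _ ≤ ∑ x ∈ p.roots.toFinset, ((quadY E x).roots.toFinset.image fun y => (x, y)).card :=
        Finset.card_biUnion_le
    _ ≤ ∑ _x ∈ p.roots.toFinset, 2 := by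
        apply Finset.sum_le_sum
        intro x _
        exact Finset.card_image_le.trans (quadY_roots_card E x)
    _ = p.roots.toFinset.card * 2 := by rw [Finset.sum_const, smul_eq_mul]
    _ ≤ p.natDegree * 2 := by
        apply Nat.mul_le_mul_right
        exact (Multiset.toFinset_card_le _).trans (Polynomial.card_roots' _)

lemma mem_pairSet {p : K[X]} (hp : p ≠ 0) {x y : K} (hx : p.eval x = 0) (h : E.Equation x y) :
    (x, y) ∈ pairSet E p := by
  unfold pairSet
  simp only [Finset.mem_biUnion, Multiset.mem_toFinset, Finset.mem_image, Prod.mk.injEq]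
  refine ⟨x, (Polynomial.mem_roots hp).mpr hx, y, ?_, rfl, rfl⟩
  exact (Polynomial.mem_roots (quadY_ne_zero E x)).mpr ((quadY_eval E x y).mpr h)

/-- A set of points whose nonzero members have `x`-coordinate a root of `p` is finite, with
an explicit bound. -/
lemma finite_of_roots {p : K[X]} (hp : p ≠ 0) (A : Set E.Point)
    (hA : ∀ P ∈ A, ∀ x y (h : E.Nonsingular x y), P = Point.some x y h → p.eval x = 0) :
    A.Finite ∧ A.ncard ≤ p.natDegree * 2 + 1 := by
  have hsub : toPair '' A ⊆ ((insert none ((pairSet E p).image some) : Finset (Option (K × K))) :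
      Set (Option (K × K))) := by
    rintro _ ⟨P, hP, rfl⟩
    rcases P with _ | ⟨x, y, h⟩
    · simp [toPair]
    · have := hA _ hP x y h rfl
      simp only [toPair, Finset.coe_insert, Finset.coe_image, Set.mem_insert_iff, reduceCtorEq,
        Set.mem_image, Finset.mem_coe, Option.some.injEq, exists_eq_right, false_or]
      exact mem_pairSet hp this h.1
  have hfin : (toPair '' A).Finite := (Finset.finite_toSet _).subset hsub
  have hAfin : A.Finite := hfin.of_finite_image (toPair_injective.injOn)
  refine ⟨hAfin, ?_⟩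
  calc A.ncard = (toPair '' A).ncard := (Set.ncard_image_of_injective A toPair_injective).symm
    _ ≤ ((insert none ((pairSet E p).image some) : Finset (Option (K × K))) :
          Set (Option (K × K))).ncard := Set.ncard_le_ncard hsub (Finset.finite_toSet _)
    _ = (insert none ((pairSet E p).image some) : Finset (Option (K × K))).card :=
        Set.ncard_coe_finset _
    _ ≤ ((pairSet E p).image some).card + 1 := Finset.card_insert_le _ _
    _ ≤ (pairSet E p).card + 1 := Nat.add_le_add_right Finset.card_image_le 1
    _ ≤ p.natDegree * 2 + 1 := Nat.add_le_add_right (pairSet_card p) 1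

end Fermat.Agent.S51.H80
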