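import Mathlib
import Fermat.Agent.S51.Count

set_option autoImplicit false
set_option linter.unusedSectionVars false

open WeierstrassCurve WeierstrassCurve.Affine Polynomial

namespace Fermat.Agent.S51.H80

variable {K : Type*} [Field K] [DecidableEq K] {E : WeierstrassCurve.Affine K}

lemma torsion_card_le (n : ℕ) (p : K[X]) (hp : p ≠ 0)
    (hroot : ∀ x y (h : E.Nonsingular x y), n • Point.some x y h = 0 → p.eval x = 0) :
    Finite (Submodule.torsionBy ℤ E.Point (n : ℤ)) ∧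
      Nat.card (Submodule.torsionBy ℤ E.Point (n : ℤ)) ≤ p.natDegree * 2 + 1 := by
  have key := finite_of_roots hp ((Submodule.torsionBy ℤ E.Point (n : ℤ) : Set E.Point)) (by
    intro P hP x y h hPe
    apply hroot x y h
    have h1 : (n : ℤ) • P = 0 := (Submodule.mem_torsionBy_iff _ _).mp hP
    rw [← hPe, ← natCast_zsmul]; exact h1)
  refine ⟨key.1.to_subtype, ?_⟩
  have : Nat.card (Submodule.torsionBy ℤ E.Point (n : ℤ)) =
      ((Submodule.torsionBy ℤ E.Point (n : ℤ) : Set E.Point)).ncard :=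
    Nat.card_coe_set_eq _
  rw [this]
  exact key.2

lemma torsion3_card (h3 : (3 : K) ≠ 0) :
    Finite (Submodule.torsionBy ℤ E.Point ((3 : ℕ) : ℤ)) ∧
      Nat.card (Submodule.torsionBy ℤ E.Point ((3 : ℕ) : ℤ)) < 3 ^ 3 := by
  have key := torsion_card_le (E := E) 3 (WeierstrassCurve.Ψ₃ E) (WeierstrassCurve.Ψ₃_ne_zero E h3)
    (by
      intro x y h hn
      rw [eval_Ψ₃]
      exact psi3_eq_zero_of_three_nsmul h hn)
  refine ⟨key.1, lt_of_le_of_lt key.2 ?_⟩
  have := WeierstrassCurve.natDegree_Ψ₃_le E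
  omega

lemma torsion5_card (h5 : (5 : K) ≠ 0) :
    Finite (Submodule.torsionBy ℤ E.Point ((5 : ℕ) : ℤ)) ∧
      Nat.card (Submodule.torsionBy ℤ E.Point ((5 : ℕ) : ℤ)) < 5 ^ 3 := by
  have hne : WeierstrassCurve.preΨ' E 5 ≠ 0 :=
    WeierstrassCurve.preΨ'_ne_zero E (n := 5) (by exact_mod_cast h5)
  have key := torsion_card_le (E := E) 5 (WeierstrassCurve.preΨ' E 5) hne
    (by
      intro x y h hn
      rw [eval_preΨ'_five]
      exact (psi5_eq_zero_of_five_nsmul h hn).1)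
  refine ⟨key.1, lt_of_le_of_lt key.2 ?_⟩
  have := WeierstrassCurve.natDegree_preΨ'_le E 5
  have h2 : (5 ^ 2 - if Even 5 then 4 else 1) / 2 = 12 := by decide
  rw [h2] at this
  omega

section Exist

variable [IsAlgClosed K]

lemma exists_y (hns : ∀ x y, E.Equation x y → E.Nonsingular x y) (x : K) :
    ∃ y, E.Nonsingular x y := by
  obtain ⟨y, hy⟩ := IsAlgClosed.exists_root (quadY E x) (by
    rw [Polynomial.degree_eq_natDegree (quadY_ne_zero E x), quadY_natDegree]; norm_num)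
  exact ⟨y, hns x y ((quadY_eval E x y).mp hy)⟩

lemma exists_three_torsion (hns : ∀ x y, E.Equation x y → E.Nonsingular x y) (h3 : (3 : K) ≠ 0) :
    ∃ P : E.Point, P ≠ 0 ∧ (3 : ℕ) • P = 0 := by
  obtain ⟨x, hx⟩ := IsAlgClosed.exists_root (WeierstrassCurve.Ψ₃ E) (by
    rw [Polynomial.degree_eq_natDegree (WeierstrassCurve.Ψ₃_ne_zero E h3),
      WeierstrassCurve.natDegree_Ψ₃ E h3]; norm_num)
  obtain ⟨y, hy⟩ := exists_y hns x
  refine ⟨Point.some x y hy, Point.some_ne_zero hy, three_nsmul_of_psi3 hy ?_⟩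
  rw [← eval_Ψ₃]; exact hx

lemma exists_five_torsion (hns : ∀ x y, E.Equation x y → E.Nonsingular x y) (h5 : (5 : K) ≠ 0) :
    ∃ P : E.Point, P ≠ 0 ∧ (5 : ℕ) • P = 0 := by
  have h5' : ((5 : ℕ) : K) ≠ 0 := by exact_mod_cast h5
  have hne : WeierstrassCurve.preΨ' E 5 ≠ 0 := WeierstrassCurve.preΨ'_ne_zero E h5'
  obtain ⟨x, hx⟩ := IsAlgClosed.exists_root (WeierstrassCurve.preΨ' E 5) (by
    rw [Polynomial.degree_eq_natDegree hne]
    have := WeierstrassCurve.natDegree_preΨ'_pos E (n := 5) (by norm_num) h5'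
    exact_mod_cast this.ne')
  obtain ⟨y, hy⟩ := exists_y hns x
  refine ⟨Point.some x y hy, Point.some_ne_zero hy, five_nsmul_of_psi5 hy ?_⟩
  rw [← eval_preΨ'_five]; exact hx

end Exist

/-- `x`-coordinate (junk value `0` at the origin) -/
def xc : E.Point → K
  | .zero => 0
  | .some x _ _ => x

lemma xc_some {x y : K} (h : E.Nonsingular x y) : xc (Point.some x y h) = x := rfl

lemma xc_neg (P : E.Point) : xc (-P) = xc P := by
  rcases P with _ | ⟨x, y, h⟩
  · rfl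
  · rfl

lemma eq_or_eq_neg_of_xc {P Q : E.Point} (hP : P ≠ 0) (hQ : Q ≠ 0) (h : xc P = xc Q) :
    P = Q ∨ P = -Q := by
  rcases P with _ | ⟨x, y, h₁⟩
  · exact absurd rfl hP
  rcases Q with _ | ⟨x', y', h₂⟩
  · exact absurd rfl hQ
  exact Point.X_eq_iff.mp h

lemma xc_two {P : E.Point} (hP : P ≠ 0) (h2 : P + P ≠ 0) :
    xc (P + P) * dupD E (xc P) = dupN E (xc P) ∧ dupD E (xc P) ≠ 0 := by
  rcases P with _ | ⟨x, y, h⟩
  · exact absurd rfl hP
  have he : eta E x y ≠ 0 := fun he => h2 (add_self_eq_zero_of_eta h he)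
  obtain ⟨x₂, y₂, h₂, hadd, hx⟩ := add_self_of_eta_ne h he
  rw [hadd]
  refine ⟨hx, ?_⟩
  rw [xc_some, ← eta_sq E h.1]
  exact pow_ne_zero 2 he

lemma psi3_xc {P : E.Point} (hP : P ≠ 0) (h3 : (3 : ℕ) • P = 0) : psi3 E (xc P) = 0 := by
  rcases P with _ | ⟨x, y, h⟩
  · exact absurd rfl hP
  exact psi3_eq_zero_of_three_nsmul h h3

/-- the two symmetric relations cut out by a `5`-torsion point -/
def F1 (E : WeierstrassCurve.Affine K) (s t : K) : K :=
  -s ^ 4 + 8 * s ^ 2 * t - 10 * t ^ 2 + E.b₂ * s * t + E.b₄ * (s ^ 2 + 2 * t) + 3 * E.b₆ * s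
    + 2 * E.b₈

def F2 (E : WeierstrassCurve.Affine K) (s t : K) : K :=
  -s ^ 3 + 6 * s * t + E.b₂ * t + E.b₄ * s + E.b₆

lemma F1_F2_of_dup {x₁ x₂ : K} (h1 : x₂ * dupD E x₁ = dupN E x₁) (h2 : x₁ * dupD E x₂ = dupN E x₂)
    (hne : x₁ ≠ x₂) : F1 E (x₁ + x₂) (x₁ * x₂) = 0 ∧ F2 E (x₁ + x₂) (x₁ * x₂) = 0 := by
  constructor
  · have : F1 E (x₁ + x₂) (x₁ * x₂) =
        (x₂ * dupD E x₁ - dupN E x₁) + (x₁ * dupD E x₂ - dupN E x₂) := by
      simp only [F1, dupD, dupN]; ring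
    rw [this, h1, h2]; ring
  · have : F2 E (x₁ + x₂) (x₁ * x₂) * (x₁ - x₂) =
        (x₂ * dupD E x₁ - dupN E x₁) - (x₁ * dupD E x₂ - dupN E x₂) := by
      simp only [F2, dupD, dupN]; ring
    rw [h1, h2] at this
    have h3 : F2 E (x₁ + x₂) (x₁ * x₂) * (x₁ - x₂) = 0 := by rw [this]; ring
    rcases mul_eq_zero.mp h3 with h | h
    · exact h
    · exact absurd (sub_eq_zero.mp h) hne

/-- the data attached to a point of order `5` -/
lemma five_data {P : E.Point} (hP : P ≠ 0) (h5 : (5 : ℕ) • P = 0) :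
    xc (P + P) * dupD E (xc P) = dupN E (xc P) ∧
    xc P * dupD E (xc (P + P)) = dupN E (xc (P + P)) ∧ xc P ≠ xc (P + P) ∧
    P + P ≠ 0 ∧ (P + P) + (P + P) = -P := by
  have h2 : P + P ≠ 0 := by
    intro h2
    apply hP
    have : P = (5 : ℕ) • P - ((P + P) + (P + P)) := by abel
    rw [this, h5, h2]; simp
  have h4 : (P + P) + (P + P) = -P := by
    have : (P + P) + (P + P) = (5 : ℕ) • P - P := by abel
    rw [this, h5, zero_sub]
  have h4' : (P + P) + (P + P) ≠ 0 := by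
    rw [h4]; exact neg_ne_zero.mpr hP
  have e1 := xc_two hP h2
  have e2 := xc_two h2 h4'
  rw [h4, xc_neg] at e2
  refine ⟨e1.1, e2.1, ?_, h2, h4⟩
  intro hx
  rcases eq_or_eq_neg_of_xc hP h2 hx with h | h
  · apply hP
    have : P = (P + P) - P := by abel
    rw [this, ← h]; simp
  · -- 3P = 0 and 5P = 0
    apply hP
    have h3 : P + (P + P) = 0 := by
      nth_rewrite 1 [h]; exact neg_add_cancel _
    have : P = ((P + (P + P)) + (P + (P + P))) - (5 : ℕ) • P := by abel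
    rw [this, h5, h3]; simp

end Fermat.Agent.S51.H80
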