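import Mathlib
import Fermat.Prelude.Def_FLTPrelim_GaloisRep
import Fermat.Prelude.Def_FLTPrelim_ModularRep
import Fermat.Agent.S51.TorsSub
import Fermat.Agent.S51.LinAlg

set_option autoImplicit false
set_option linter.unusedSectionVars false

open WeierstrassCurve WeierstrassCurve.Affine WeierstrassCurve.Affine.Point

namespace Fermat.Agent.S51.H80

/-- the algebraic closure used in the statement -/
abbrev Kb : Type := AlgebraicClosure ℚ

section General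

variable {W' : Affine ℚ}

lemma xc_smul (σ : Kb ≃ₐ[ℚ] Kb) (P : (W'⁄Kb).Point) : xc (σ • P) = σ (xc P) := by
  rcases P with _ | ⟨x, y, h⟩
  · show (0 : Kb) = σ 0
    simp
  · rfl

lemma smul_point_ne_zero (σ : Kb ≃ₐ[ℚ] Kb) {P : (W'⁄Kb).Point} (hP : P ≠ 0) : σ • P ≠ 0 := by
  intro h
  apply hP
  have : σ⁻¹ • (σ • P) = P := inv_smul_smul σ P
  calc P = σ⁻¹ • (σ • P) := this.symm
    _ = σ⁻¹ • (0 : (W'⁄Kb).Point) := by rw [h]
    _ = 0 := rfl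

lemma nsmul_mod {A : Type*} [AddCommGroup A] {n : ℕ} {P : A} (hn : n • P = 0) (k : ℕ) :
    k • P = (k % n) • P := by
  conv_lhs => rw [← Nat.div_add_mod k n]
  rw [add_nsmul, mul_nsmul, hn, nsmul_zero, zero_add]

lemma fixed_rational (x : Kb) (h : ∀ σ : Kb ≃ₐ[ℚ] Kb, σ x = x) :
    ∃ q : ℚ, algebraMap ℚ Kb q = x := by
  have hG : IsGalois ℚ Kb := by
    have h : (DivisionRing.toRatAlgebra : Algebra ℚ (AlgebraicClosure ℚ)) =
        AlgebraicClosure.instAlgebra ℚ := Subsingleton.elim _ _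
    rw [h]
    infer_instance
  exact (InfiniteGalois.mem_range_algebraMap_iff_fixed (k := ℚ) (K := Kb) x).mpr h

end General

section Main

variable (W : WeierstrassCurve ℤ)

/-- the rational curve -/
abbrev EQ : Affine ℚ := W.map (Int.castRingHom ℚ)

lemma EK_nonsingular (hΔ : W.Δ ≠ 0) (x y : Kb) (h : ((EQ W)⁄Kb).Equation x y) :
    ((EQ W)⁄Kb).Nonsingular x y := by
  have hΔ' : ((EQ W)⁄Kb).Δ ≠ 0 := by
    show ((W.map (Int.castRingHom ℚ)).map (algebraMap ℚ Kb)).Δ ≠ 0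
    rw [WeierstrassCurve.map_Δ, WeierstrassCurve.map_Δ]
    simpa using hΔ
  exact (Affine.equation_iff_nonsingular_of_Δ_ne_zero hΔ').mp h

lemma psi3_map (x : ℚ) : psi3 ((EQ W)⁄Kb) (algebraMap ℚ Kb x) = algebraMap ℚ Kb (psi3 (EQ W) x) := by
  show psi3 ((EQ W).map (algebraMap ℚ Kb)) (algebraMap ℚ Kb x) = _
  simp only [psi3, WeierstrassCurve.map_b₂, WeierstrassCurve.map_b₄, WeierstrassCurve.map_b₆,
    WeierstrassCurve.map_b₈, map_add, map_mul, map_pow, map_ofNat]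

lemma F1_map (s t : ℚ) : F1 ((EQ W)⁄Kb) (algebraMap ℚ Kb s) (algebraMap ℚ Kb t) =
    algebraMap ℚ Kb (F1 (EQ W) s t) := by
  show F1 ((EQ W).map (algebraMap ℚ Kb)) _ _ = _
  simp only [F1, WeierstrassCurve.map_b₂, WeierstrassCurve.map_b₄, WeierstrassCurve.map_b₆,
    WeierstrassCurve.map_b₈, map_add, map_mul, map_pow, map_ofNat, map_neg, map_sub]

lemma F2_map (s t : ℚ) : F2 ((EQ W)⁄Kb) (algebraMap ℚ Kb s) (algebraMap ℚ Kb t) =
    algebraMap ℚ Kb (F2 (EQ W) s t) := by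
  show F2 ((EQ W).map (algebraMap ℚ Kb)) _ _ = _
  simp only [F2, WeierstrassCurve.map_b₂, WeierstrassCurve.map_b₄, WeierstrassCurve.map_b₆,
    map_add, map_mul, map_pow, map_ofNat, map_neg]

/-- common part: a reducible `E[p]` contains a Galois-stable cyclic subgroup generated by `P`. -/
lemma exists_stable_generator (p : ℕ) [Fact p.Prime]
    (hcard : Finite (Submodule.torsionBy ℤ ((EQ W)⁄Kb).Point (p : ℤ)) ∧
      Nat.card (Submodule.torsionBy ℤ ((EQ W)⁄Kb).Point (p : ℤ)) < p ^ 3)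
    (hex : ∃ P : ((EQ W)⁄Kb).Point, P ≠ 0 ∧ p • P = 0)
    (h : ¬ W.ModRepIsIrreducible p) :
    ∃ P : ((EQ W)⁄Kb).Point, P ≠ 0 ∧ p • P = 0 ∧
      ∀ σ : Kb ≃ₐ[ℚ] Kb, ∃ k : ℕ, σ • P = k • P := by
  unfold WeierstrassCurve.ModRepIsIrreducible GaloisRepIsIrreducible at h
  have hnt : Nontrivial (Submodule.torsionBy ℤ ((EQ W)⁄Kb).Point (p : ℤ)) := by
    obtain ⟨P, hP0, hP⟩ := hex
    have hmem : P ∈ Submodule.torsionBy ℤ ((EQ W)⁄Kb).Point (p : ℤ) := by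
      rw [Submodule.mem_torsionBy_iff, natCast_zsmul]; exact hP
    refine ⟨⟨⟨P, hmem⟩, 0, ?_⟩⟩
    intro h0
    exact hP0 (congrArg Subtype.val h0)
  have h' : ¬ ∀ N : Submodule (ZMod p) (Submodule.torsionBy ℤ ((EQ W)⁄Kb).Point (p : ℤ)),
      IsGaloisStable ℚ N → N = ⊥ ∨ N = ⊤ := fun hall => h ⟨hnt, hall⟩
  push Not at h'
  obtain ⟨N, hstable, hbot, htop⟩ := h'
  have := hcard.1
  obtain ⟨v, hvN, hv0, hgen⟩ := exists_generator_of_proper hcard.2 N hbot htop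
  refine ⟨v.1, fun h0 => hv0 (Subtype.ext h0), ?_, ?_⟩
  · have := v.2
    rw [Submodule.mem_torsionBy_iff, natCast_zsmul] at this
    exact this
  · intro σ
    obtain ⟨k, hk⟩ := hgen (σ • v) (hstable σ v hvN)
    refine ⟨k, ?_⟩
    have h1 := congrArg Subtype.val hk
    have e1 : ((σ • v : Submodule.torsionBy ℤ ((EQ W)⁄Kb).Point (p : ℤ)) : ((EQ W)⁄Kb).Point)
        = σ • v.1 := rfl
    have e2 : ((k • v : Submodule.torsionBy ℤ ((EQ W)⁄Kb).Point (p : ℤ)) : ((EQ W)⁄Kb).Point)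
        = k • v.1 := by simp
    rw [← e1, ← e2]; exact h1

/-- A reducible `E[3]` gives a rational root of the `3`-division polynomial. -/
theorem exists_root3 (hΔ : W.Δ ≠ 0) (h : ¬ W.ModRepIsIrreducible 3) :
    ∃ x₀ : ℚ, psi3 (EQ W) x₀ = 0 := by
  have : Fact (Nat.Prime 3) := ⟨by norm_num⟩
  have h3 : (3 : Kb) ≠ 0 := three_ne_zero
  obtain ⟨P, hP0, hP3, hσ⟩ := exists_stable_generator W 3 (torsion3_card h3)
    (exists_three_torsion (EK_nonsingular W hΔ) h3) h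
  have hfix : ∀ σ : Kb ≃ₐ[ℚ] Kb, σ (xc P) = xc P := by
    intro σ
    obtain ⟨k, hk⟩ := hσ σ
    rw [nsmul_mod hP3 k] at hk
    rw [← xc_smul, hk]
    have hk3 : k % 3 < 3 := Nat.mod_lt _ (by norm_num)
    interval_cases hkk : k % 3
    · exfalso
      rw [zero_nsmul] at hk
      exact smul_point_ne_zero σ hP0 hk
    · rw [one_nsmul]
    · have : (2 : ℕ) • P = -P := by
        have : (2 : ℕ) • P = (3 : ℕ) • P - P := by abel
        rw [this, hP3, zero_sub]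
      rw [this, xc_neg]
  obtain ⟨q, hq⟩ := fixed_rational (xc P) hfix
  refine ⟨q, ?_⟩
  have h0 := psi3_xc hP0 hP3
  rw [← hq, psi3_map] at h0
  exact (map_eq_zero (algebraMap ℚ Kb)).mp h0

/-- A reducible `E[5]` gives rational `s, t` with the two symmetric relations. -/
theorem exists_ST5 (hΔ : W.Δ ≠ 0) (h : ¬ W.ModRepIsIrreducible 5) :
    ∃ s t : ℚ, F1 (EQ W) s t = 0 ∧ F2 (EQ W) s t = 0 ∧ s ^ 2 - 4 * t ≠ 0 := by
  have : Fact (Nat.Prime 5) := ⟨by norm_num⟩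
  have h5 : (5 : Kb) ≠ 0 := by norm_num
  obtain ⟨P, hP0, hP5, hσ⟩ := exists_stable_generator W 5 (torsion5_card h5)
    (exists_five_torsion (EK_nonsingular W hΔ) h5) h
  obtain ⟨e1, e2, hne, h2, h4⟩ := five_data hP0 hP5
  have hfix : ∀ σ : Kb ≃ₐ[ℚ] Kb, (σ (xc P) = xc P ∧ σ (xc (P + P)) = xc (P + P)) ∨
      (σ (xc P) = xc (P + P) ∧ σ (xc (P + P)) = xc P) := by
    intro σ
    obtain ⟨k, hk⟩ := hσ σ
    rw [nsmul_mod hP5 k] at hk
    have hadd : σ • (P + P) = σ • P + σ • P := (Point.map σ.toAlgHom).map_add P P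
    rw [← xc_smul, ← xc_smul, hadd, hk]
    have hk5 : k % 5 < 5 := Nat.mod_lt _ (by norm_num)
    interval_cases hkk : k % 5
    · exfalso
      rw [zero_nsmul] at hk
      exact smul_point_ne_zero σ hP0 hk
    · left; rw [one_nsmul]; exact ⟨rfl, rfl⟩
    · right
      have : (2 : ℕ) • P = P + P := two_nsmul P
      rw [this, h4, xc_neg]; exact ⟨rfl, rfl⟩
    · right
      have : (3 : ℕ) • P = -(P + P) := by
        have : (3 : ℕ) • P = (5 : ℕ) • P - (P + P) := by abel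
        rw [this, hP5, zero_sub]
      rw [this, xc_neg, ← neg_add, xc_neg, h4, xc_neg]; exact ⟨rfl, rfl⟩
    · left
      have : (4 : ℕ) • P = -P := by
        have : (4 : ℕ) • P = (5 : ℕ) • P - P := by abel
        rw [this, hP5, zero_sub]
      rw [this, xc_neg, ← neg_add, xc_neg]; exact ⟨rfl, rfl⟩
  have hs : ∀ σ : Kb ≃ₐ[ℚ] Kb, σ (xc P + xc (P + P)) = xc P + xc (P + P) := by
    intro σ
    rcases hfix σ with ⟨a, b⟩ | ⟨a, b⟩
    · rw [map_add, a, b]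
    · rw [map_add, a, b, add_comm]
  have ht : ∀ σ : Kb ≃ₐ[ℚ] Kb, σ (xc P * xc (P + P)) = xc P * xc (P + P) := by
    intro σ
    rcases hfix σ with ⟨a, b⟩ | ⟨a, b⟩
    · rw [map_mul, a, b]
    · rw [map_mul, a, b, mul_comm]
  obtain ⟨s, hs'⟩ := fixed_rational _ hs
  obtain ⟨t, ht'⟩ := fixed_rational _ ht
  obtain ⟨f1, f2⟩ := F1_F2_of_dup e1 e2 hne
  rw [← hs', ← ht', F1_map] at f1
  rw [← hs', ← ht', F2_map] at f2
  refine ⟨s, t, (map_eq_zero (algebraMap ℚ Kb)).mp f1, (map_eq_zero (algebraMap ℚ Kb)).mp f2, ?_⟩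
  intro hst
  apply hne
  have h6 : algebraMap ℚ Kb (s ^ 2 - 4 * t) = (xc P - xc (P + P)) ^ 2 := by
    rw [map_sub, map_pow, map_mul, hs', ht', map_ofNat]; ring
  rw [hst, _root_.map_zero] at h6
  exact sub_eq_zero.mp (pow_eq_zero_iff (two_ne_zero) |>.mp h6.symm)

/-- The same data, with the two conjugate `x`-coordinates kept in `Kb` (interface (I5)). -/
theorem exists_five_K (hΔ : W.Δ ≠ 0) (h : ¬ W.ModRepIsIrreducible 5) :
    ∃ x₁ x₂ : Kb, x₁ ≠ x₂ ∧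
      x₁ ^ 4 - ((EQ W).b₄ : Kb) * x₁ ^ 2 - 2 * ((EQ W).b₆ : Kb) * x₁ - ((EQ W).b₈ : Kb)
        = x₂ * (4 * x₁ ^ 3 + ((EQ W).b₂ : Kb) * x₁ ^ 2 + 2 * ((EQ W).b₄ : Kb) * x₁ + ((EQ W).b₆ : Kb)) ∧
      x₂ ^ 4 - ((EQ W).b₄ : Kb) * x₂ ^ 2 - 2 * ((EQ W).b₆ : Kb) * x₂ - ((EQ W).b₈ : Kb)
        = x₁ * (4 * x₂ ^ 3 + ((EQ W).b₂ : Kb) * x₂ ^ 2 + 2 * ((EQ W).b₄ : Kb) * x₂ + ((EQ W).b₆ : Kb)) ∧
      ∃ s t : ℚ, x₁ + x₂ = (s : Kb) ∧ x₁ * x₂ = (t : Kb) := by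
  have : Fact (Nat.Prime 5) := ⟨by norm_num⟩
  have h5 : (5 : Kb) ≠ 0 := by norm_num
  obtain ⟨P, hP0, hP5, hσ⟩ := exists_stable_generator W 5 (torsion5_card h5)
    (exists_five_torsion (EK_nonsingular W hΔ) h5) h
  obtain ⟨e1, e2, hne, h2, h4⟩ := five_data hP0 hP5
  have hfix : ∀ σ : Kb ≃ₐ[ℚ] Kb, (σ (xc P) = xc P ∧ σ (xc (P + P)) = xc (P + P)) ∨
      (σ (xc P) = xc (P + P) ∧ σ (xc (P + P)) = xc P) := by
    intro σ
    obtain ⟨k, hk⟩ := hσ σ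
    rw [nsmul_mod hP5 k] at hk
    have hadd : σ • (P + P) = σ • P + σ • P := (Point.map σ.toAlgHom).map_add P P
    rw [← xc_smul, ← xc_smul, hadd, hk]
    have hk5 : k % 5 < 5 := Nat.mod_lt _ (by norm_num)
    interval_cases hkk : k % 5
    · exfalso
      rw [zero_nsmul] at hk
      exact smul_point_ne_zero σ hP0 hk
    · left; rw [one_nsmul]; exact ⟨rfl, rfl⟩
    · right
      have : (2 : ℕ) • P = P + P := two_nsmul P
      rw [this, h4, xc_neg]; exact ⟨rfl, rfl⟩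
    · right
      have : (3 : ℕ) • P = -(P + P) := by
        have : (3 : ℕ) • P = (5 : ℕ) • P - (P + P) := by abel
        rw [this, hP5, zero_sub]
      rw [this, xc_neg, ← neg_add, xc_neg, h4, xc_neg]; exact ⟨rfl, rfl⟩
    · left
      have : (4 : ℕ) • P = -P := by
        have : (4 : ℕ) • P = (5 : ℕ) • P - P := by abel
        rw [this, hP5, zero_sub]
      rw [this, xc_neg, ← neg_add, xc_neg]; exact ⟨rfl, rfl⟩
  have hs : ∀ σ : Kb ≃ₐ[ℚ] Kb, σ (xc P + xc (P + P)) = xc P + xc (P + P) := by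
    intro σ
    rcases hfix σ with ⟨a, b⟩ | ⟨a, b⟩
    · rw [map_add, a, b]
    · rw [map_add, a, b, add_comm]
  have ht : ∀ σ : Kb ≃ₐ[ℚ] Kb, σ (xc P * xc (P + P)) = xc P * xc (P + P) := by
    intro σ
    rcases hfix σ with ⟨a, b⟩ | ⟨a, b⟩
    · rw [map_mul, a, b]
    · rw [map_mul, a, b, mul_comm]
  obtain ⟨s, hs'⟩ := fixed_rational _ hs
  obtain ⟨t, ht'⟩ := fixed_rational _ ht
  have hb2 : ((EQ W)⁄Kb).b₂ = ((EQ W).b₂ : Kb) := by
    show ((EQ W).map (algebraMap ℚ Kb)).b₂ = _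
    rw [WeierstrassCurve.map_b₂, eq_ratCast]
  have hb4 : ((EQ W)⁄Kb).b₄ = ((EQ W).b₄ : Kb) := by
    show ((EQ W).map (algebraMap ℚ Kb)).b₄ = _
    rw [WeierstrassCurve.map_b₄, eq_ratCast]
  have hb6 : ((EQ W)⁄Kb).b₆ = ((EQ W).b₆ : Kb) := by
    show ((EQ W).map (algebraMap ℚ Kb)).b₆ = _
    rw [WeierstrassCurve.map_b₆, eq_ratCast]
  have hb8 : ((EQ W)⁄Kb).b₈ = ((EQ W).b₈ : Kb) := by
    show ((EQ W).map (algebraMap ℚ Kb)).b₈ = _
    rw [WeierstrassCurve.map_b₈, eq_ratCast]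
  simp only [dupD, dupN, hb2, hb4, hb6, hb8] at e1 e2
  refine ⟨xc P, xc (P + P), hne, e1.symm, e2.symm, s, t, ?_, ?_⟩
  · rw [← hs', eq_ratCast]
  · rw [← ht', eq_ratCast]

end Main

end Fermat.Agent.S51.H80
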