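import Mathlib
import Fermat.Prelude.Def_FLTPrelim_Modularity
import Fermat.Prelude.Def_FLTPrelim_GaloisRep
import Fermat.Prelude.Def_FLTPrelim_ModularRep
import Fermat.Agent.S51.Galois
import Fermat.Agent.S51.AlgCore_helper63

set_option autoImplicit false

open WeierstrassCurve WeierstrassCurve.Affine WeierstrassCurve.Affine.Point

namespace Fermat.Agent.S51.H80

/-- S51 modulo the determination of the rational points of `15a1`. -/
theorem main_of_pts (pts : Fermat.Agent.S51.H63.Pts15) (W : WeierstrassCurve ℤ) (hΔ : W.Δ ≠ 0)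
    (hW : W.IsSemistableModel) : W.ModRepIsIrreducible 3 ∨ W.ModRepIsIrreducible 5 := by
  by_contra hcon
  push Not at hcon
  obtain ⟨h3, h5⟩ := hcon
  obtain ⟨x₀, hx₀⟩ := exists_root3 W hΔ h3
  obtain ⟨x₁, x₂, hne, h12, h21, s, t, hs, ht⟩ := exists_five_K W hΔ h5
  have h5' : (5 : ℤ) ∣ W.Δ → ¬ (5 : ℤ) ∣ W.c₄ := fun h => hW 5 (by norm_num) (by exact_mod_cast h)
  refine Fermat.Agent.S51.H63.core pts (EQ W).b₂ (EQ W).b₄ (EQ W).b₆ (EQ W).b₈ ?_ W.c₄ W.Δ ?_ ?_ hΔ h5'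
    x₀ hx₀ x₁ x₂ hne s t hs ht h12 h21
  · exact (EQ W).b_relation
  · show ((W.c₄ : ℤ) : ℚ) = (W.map (Int.castRingHom ℚ)).b₂ ^ 2 - 24 * (W.map (Int.castRingHom ℚ)).b₄
    rw [WeierstrassCurve.map_b₂, WeierstrassCurve.map_b₄, WeierstrassCurve.c₄]
    simp
  · show ((W.Δ : ℤ) : ℚ) = _
    have h := WeierstrassCurve.map_Δ W (Int.castRingHom ℚ)
    have h2 : (W.map (Int.castRingHom ℚ)).Δ = ((W.Δ : ℤ) : ℚ) := by rw [h]; simp
    rw [← h2]
    rfl

end Fermat.Agent.S51.H80
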